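import Fermat.Agent.H60.SS2.LocRing
import Fermat.Agent.H59.SS.PlaceEval

/-!
# P-SS2, row SS2-A1 (helper60) : REGCRIT

`regCrit : LocalHartogsStatement → RegCritStatement`.

* (p) `𝔭_V B_𝔪 = x1 B_𝔪` : for `s ∈ B ∩ 𝔪_V` the function `s / x1` has no pole along `V`, along
  the other vertical valuations through `𝔪` (HYP1a) and along the places centred at `𝔪`
  (HYP1b); its poles along the vertical valuations NOT through `𝔪` are removed by a factor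
  `t ∈ B ∖ 𝔪` (`regCrit_clear`); then LOCAL HARTOGS.
* (r) `𝔪 B_𝔪 = (x1, x2) B_𝔪` : `branch_maximalIdeal_eq`.
-/

set_option autoImplicit false
set_option linter.unusedSectionVars false
set_option linter.style.haveILetI false

noncomputable section

namespace Fermat.Agent.H60.SS2

open Fermat.Agent.H22.KL Fermat.Agent.H45 IsLocalRing

section Clear

variable {A : Type} [CommRing A] {E₀ : Type} [Field E₀] [Algebra A E₀]
variable {y : E₀} (𝔪 : Ideal (chartClosure A E₀ y)) [𝔪.IsPrime]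

/-- Clearing the poles along finitely many discrete valuation rings not through `𝔪`. -/
theorem regCrit_clear (F : Finset (ValuationSubring E₀))
    (hdvr : ∀ W ∈ F, W ≠ ⊤ ∧ IsPrincipalIdealRing W)
    (hBW : ∀ W ∈ F, ∀ s : ↥(chartClosure A E₀ y), (s : E₀) ∈ W)
    (z : E₀) (hz : ∀ W ∈ F, Through A E₀ y 𝔪 W → z ∈ W) :
    ∃ t : ↥(chartClosure A E₀ y), t ∉ 𝔪 ∧ ∀ W ∈ F, (t : E₀) * z ∈ W := by
  classical
  induction F using Finset.induction_on with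
  | empty => exact ⟨1, fun h => (Ideal.IsPrime.ne_top ‹_›) ((Ideal.eq_top_iff_one 𝔪).2 h), by simp⟩
  | insert W0 F hW0 ih =>
    obtain ⟨t, ht, htF⟩ := ih (fun W hW => hdvr W (Finset.mem_insert_of_mem hW))
      (fun W hW => hBW W (Finset.mem_insert_of_mem hW))
      (fun W hW => hz W (Finset.mem_insert_of_mem hW))
    by_cases hthr : Through A E₀ y 𝔪 W0
    · refine ⟨t, ht, fun W hW => ?_⟩
      rcases Finset.mem_insert.1 hW with rfl | hW
      · exact W.mul_mem _ _ (hBW W (Finset.mem_insert_self _ _) t)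
          (hz W (Finset.mem_insert_self _ _) hthr)
      · exact htF W hW
    · unfold Through at hthr
      push Not at hthr
      obtain ⟨s0, hs0, hs0m⟩ := hthr
      have hs00 : (s0 : E₀) ≠ 0 := by
        intro h
        apply hs0m
        have : s0 = 0 := Subtype.ext h
        rw [this]; exact 𝔪.zero_mem
      obtain ⟨h1, h2⟩ := hdvr W0 (Finset.mem_insert_self _ _)
      obtain ⟨N, hN⟩ := vs_exists_pow_mul_mem W0 h1 h2 hs0 hs00 ((t : E₀) * z)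
      refine ⟨s0 ^ N * t, ?_, fun W hW => ?_⟩
      · intro h
        rcases Ideal.IsPrime.mem_or_mem ‹_› h with h | h
        · exact hs0m (Ideal.IsPrime.mem_of_pow_mem ‹_› N h)
        · exact ht h
      · have e : ((s0 ^ N * t : ↥(chartClosure A E₀ y)) : E₀) * z
            = (s0 : E₀) ^ N * ((t : E₀) * z) := by
          push_cast; ring
        rw [e]
        rcases Finset.mem_insert.1 hW with rfl | hW
        · exact hN
        · exact W.mul_mem _ _ (W.pow_mem (hBW W (Finset.mem_insert_of_mem hW) s0) N) (htF W hW)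

end Clear

/-- **REGCRIT.** -/
theorem regCrit (hH : LocalHartogsStatement) : RegCritStatement := by
  intro A _ _ _ E₀ _ _ _ hinj ϖ hϖ y hy hfd 𝔪 h𝔪 hϖ𝔪 Vs hfin hdvr hC V hV hthr x1 x2 hx1 hx1B
    hyp1a hyp1b D0 hD0 hx2D hx2m hx2V hyp2i hyp2ii
  classical
  haveI h𝔪p : 𝔪.IsPrime := h𝔪.isPrime
  haveI hFR : IsFractionRing ↥(chartClosure A E₀ y) E₀ :=
    Fermat.Agent.H41.SS.chartClosure_isFractionRing A E₀ y hy hfd
  haveI hNoeth : IsNoetherianRing ↥(chartClosure A E₀ y) :=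
    Fermat.Agent.H41.SS.chartClosure_isNoetherianRing A E₀ hinj ϖ hϖ y hy hfd
  obtain ⟨hBC, -, -⟩ := Fermat.Agent.H89.gaussClosureStatement A E₀ hinj ϖ hϖ y hy
  have hBW : ∀ W ∈ Vs, ∀ s : ↥(chartClosure A E₀ y), (s : E₀) ∈ W :=
    fun W hW s => (hC _).1 (hBC _ s.2) W hW
  obtain ⟨hx10, hx1V, hx1u⟩ := hx1
  -- (p)
  have hp : ∀ s : ↥(chartClosure A E₀ y), (s : E₀) ∈ V.nonunits →
      ∃ b : ↥(chartClosure A E₀ y), b ∉ 𝔪 ∧ ∃ c : ↥(chartClosure A E₀ y),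
        (b : E₀) * s = x1 * c := by
    intro s hs
    have hzW : ∀ W ∈ hfin.toFinset, Through A E₀ y 𝔪 W → (s : E₀) / x1 ∈ W := by
      intro W hW hWthr
      rw [Set.Finite.mem_toFinset] at hW
      by_cases hWV : W = V
      · rw [hWV]; exact hx1u _ hs
      · have h1 : x1⁻¹ ∈ W := vs_mem_of_not_nonunits_inv (hyp1a W hW hWV hWthr)
        rw [div_eq_mul_inv]
        exact W.mul_mem _ _ (hBW W hW s) h1
    obtain ⟨t, ht, htW⟩ := regCrit_clear 𝔪 hfin.toFinset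
      (fun W hW => hdvr W ((Set.Finite.mem_toFinset hfin).1 hW))
      (fun W hW => hBW W ((Set.Finite.mem_toFinset hfin).1 hW)) _ hzW
    have hzC : (t : E₀) * ((s : E₀) / x1) ∈ gaussClosure A E₀ ϖ y :=
      (hC _).2 (fun W hW => htW W ((Set.Finite.mem_toFinset hfin).2 hW))
    have hzP : ∀ V' : ValuationSubring E₀, CentredAt A E₀ y 𝔪 V' →
        (t : E₀) * ((s : E₀) / x1) ∈ V' := by
      intro V' hV'
      have h1 : x1⁻¹ ∈ V' := vs_mem_of_not_nonunits_inv (hyp1b V' hV')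
      have h2 : ∀ c : ↥(chartClosure A E₀ y), (c : E₀) ∈ V' :=
        fun c => Fermat.Agent.H59.SS.ssp_chartClosure_le hV'.1 c.2
      rw [div_eq_mul_inv]
      exact V'.mul_mem _ _ (h2 t) (V'.mul_mem _ _ (h2 s) h1)
    obtain ⟨b, hb, hbz⟩ := hH A E₀ hinj ϖ hϖ y hy hfd 𝔪 h𝔪 hϖ𝔪 _ hzC hzP
    refine ⟨b * t, fun h => (h𝔪p.mem_or_mem h).elim hb ht, ⟨_, hbz⟩, ?_⟩
    push_cast
    field_simp
  -- the local ring
  haveI hRN : IsNoetherianRing ↥(locAlg 𝔪) := locAlg_isNoetherianRing 𝔪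
  have hBV : ∀ s : ↥(chartClosure A E₀ y), (s : E₀) ∈ V := hBW V hV
  have hx1in : InLoc A E₀ y 𝔪 x1 := inLoc_of_mem h𝔪p.ne_top hx1B
  obtain ⟨s2, hs2m, hs2⟩ := hx2m
  have hx2B : x2 ∈ chartClosure A E₀ y := hs2 ▸ s2.2
  have hx2in : InLoc A E₀ y 𝔪 x2 := inLoc_of_mem h𝔪p.ne_top hx2B
  have hdvd := locAlg_dvd_iff 𝔪 V hBV hthr hx1B hx1V hp
  have hprime : Prime (locOf 𝔪 x1 hx1in) := locAlg_prime 𝔪 V hBV hthr hx1B hx1V hp hx10
  have hx1m : locOf 𝔪 x1 hx1in ∈ maximalIdeal ↥(locAlg 𝔪) := by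
    have h1 : (⟨x1, hx1B⟩ : ↥(chartClosure A E₀ y)) ∈ 𝔪 := hthr ⟨x1, hx1B⟩ hx1V
    exact (algebraMap_mem_maximalIdeal_iff 𝔪 _).2 h1
  have hx2m' : locOf 𝔪 x2 hx2in ∈ maximalIdeal ↥(locAlg 𝔪) := by
    have h1 : locOf 𝔪 x2 hx2in = algebraMap ↥(chartClosure A E₀ y) ↥(locAlg 𝔪) s2 :=
      Subtype.ext hs2.symm
    rw [h1]
    exact (algebraMap_mem_maximalIdeal_iff 𝔪 _).2 hs2m
  have hx2nd : ¬ locOf 𝔪 x1 hx1in ∣ locOf 𝔪 x2 hx2in := by
    rw [hdvd]; exact hx2V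
  -- the subring `D`
  let D : Subring ↥(locAlg 𝔪) := D0.comap (algebraMap ↥(locAlg 𝔪) E₀)
  have hDmem : ∀ r : ↥(locAlg 𝔪), r ∈ D ↔ (r : E₀) ∈ D0 := fun r => Iff.rfl
  have hi : ∀ d ∈ D, d ≠ 0 →
      (∃ d' ∈ D, locOf 𝔪 x1 hx1in ∣ d - locOf 𝔪 x2 hx2in * d') ∨ IsUnit d := by
    intro d hd hd0
    rcases hyp2i (d : E₀) ((hDmem d).1 hd) with ⟨d', hd', h⟩ | h
    · left
      refine ⟨locOf 𝔪 d' (hD0 d' hd'), (hDmem _).2 hd', ?_⟩
      rw [hdvd]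
      exact h
    · right
      rw [locAlg_isUnit_iff]
      exact ⟨fun h0 => hd0 (Subtype.ext h0), h⟩
  have hii : ∀ r : ↥(locAlg 𝔪), r ∈ maximalIdeal ↥(locAlg 𝔪) → ¬ locOf 𝔪 x1 hx1in ∣ r →
      ∃ d ∈ D, ∃ d' ∈ D, ¬ locOf 𝔪 x1 hx1in ∣ d' ∧ locOf 𝔪 x1 hx1in ∣ r * d' - d := by
    intro r _ _
    obtain ⟨d, hd, d', hd', hd'n, h⟩ := hyp2ii (r : E₀) (locAlg_le_val 𝔪 V hBV hthr r)
    refine ⟨locOf 𝔪 d (hD0 d hd), (hDmem _).2 hd, locOf 𝔪 d' (hD0 d' hd'), (hDmem _).2 hd',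
      ?_, ?_⟩
    · rw [hdvd]; exact hd'n
    · rw [hdvd]; exact h
  have hmax := branch_maximalIdeal_eq D hprime hx1m hx2m' hx2nd hi hii
  exact
    { vert := ⟨(hdvr V hV).1, fun z hz => (hC z).1 hz V hV, hthr⟩
      pir := (hdvr V hV).2
      unif := ⟨hx10, hx1V, hx1u⟩
      x1_mem := hx1B
      x2_mem := ⟨s2, hs2m, hs2⟩
      x2_unit := hx2V
      prin := hp
      reg := locAlg_reg_of_hmax 𝔪 hx1in hx2in hmax }

end Fermat.Agent.H60.SS2
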