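import Mathlib

/-!
# P-SS2, row SS2-A1 (helper60) : valuation subrings which are discrete valuation rings

Mathlib only.
* `vs_isDVR` : a valuation subring `V ≠ ⊤` which is a principal ideal ring is a DVR.
* `vs_exists_pow_mul_mem` : for a DVR `V`, a nonzero non-unit `s` and any `z`, some
  `s ^ N * z` lies in `V`.
-/

set_option autoImplicit false
set_option linter.unusedSectionVars false
set_option linter.style.haveILetI false

namespace Fermat.Agent.H60.SS2

section ValLemmas

variable {E : Type*} [Field E]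

theorem vs_mem_of_not_nonunits_inv {V : ValuationSubring E} {z : E}
    (hzn : z ∉ V.nonunits) : z⁻¹ ∈ V := by
  rw [ValuationSubring.mem_nonunits_iff_or] at hzn
  push Not at hzn
  exact hzn.2

theorem vs_not_nonunits_of_inv_mem {V : ValuationSubring E} {z : E} (hz0 : z ≠ 0)
    (hz : z⁻¹ ∈ V) : z ∉ V.nonunits := by
  rw [ValuationSubring.mem_nonunits_iff_or]
  push Not
  exact ⟨hz0, hz⟩

theorem vs_mem_nonunits_of_mul {V : ValuationSubring E} {z w : E} (hz : z ∈ V.nonunits)
    (hw : w ∈ V) : z * w ∈ V.nonunits := by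
  rw [ValuationSubring.mem_nonunits_iff] at hz ⊢
  rw [map_mul]
  have h1 : V.valuation w ≤ 1 := (V.valuation_le_one_iff w).2 hw
  calc V.valuation z * V.valuation w ≤ V.valuation z * 1 := by gcongr
    _ = V.valuation z := mul_one _
    _ < 1 := hz

theorem vs_nonunits_mem {V : ValuationSubring E} {z : E} (hz : z ∈ V.nonunits) : z ∈ V :=
  (V.valuation_le_one_iff z).1 (le_of_lt ((ValuationSubring.mem_nonunits_iff V).1 hz))

theorem vs_nonunits_add {V : ValuationSubring E} {z w : E} (hz : z ∈ V.nonunits)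
    (hw : w ∈ V.nonunits) : z + w ∈ V.nonunits := by
  rw [ValuationSubring.mem_nonunits_iff] at hz hw ⊢
  exact lt_of_le_of_lt (V.valuation.map_add z w) (max_lt hz hw)

theorem vs_nonunits_neg {V : ValuationSubring E} {z : E} (hz : z ∈ V.nonunits) :
    -z ∈ V.nonunits := by
  rw [ValuationSubring.mem_nonunits_iff] at hz ⊢
  rwa [Valuation.map_neg]

theorem vs_nonunits_sub {V : ValuationSubring E} {z w : E} (hz : z ∈ V.nonunits)
    (hw : w ∈ V.nonunits) : z - w ∈ V.nonunits := by
  rw [sub_eq_add_neg]; exact vs_nonunits_add hz (vs_nonunits_neg hw)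

/-- In a product which is a non-unit, one of the two factors (both in `V`) is a non-unit. -/
theorem vs_nonunits_of_mul_mem {V : ValuationSubring E} {z w : E} (hz : z ∈ V) (hw : w ∈ V)
    (h : z * w ∈ V.nonunits) : z ∈ V.nonunits ∨ w ∈ V.nonunits := by
  by_contra hcon
  push Not at hcon
  rw [ValuationSubring.mem_nonunits_iff] at h hcon
  rw [ValuationSubring.mem_nonunits_iff] at hcon
  have h1 : V.valuation z = 1 :=
    le_antisymm ((V.valuation_le_one_iff z).2 hz) (not_lt.1 hcon.1)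
  have h2 : V.valuation w = 1 :=
    le_antisymm ((V.valuation_le_one_iff w).2 hw) (not_lt.1 hcon.2)
  rw [map_mul, h1, h2, mul_one] at h
  exact lt_irrefl _ h

/-- A valuation subring `V ≠ ⊤` which is a principal ideal ring is a discrete valuation
ring. -/
theorem vs_isDVR (V : ValuationSubring E) (h1 : V ≠ ⊤) (h2 : IsPrincipalIdealRing V) :
    IsDiscreteValuationRing V := by
  refine { toIsPrincipalIdealRing := h2, toIsLocalRing := inferInstance, not_a_field' := ?_ }
  intro hbot
  apply h1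
  rw [eq_top_iff]
  intro z _
  by_contra hz
  have hz0 : z ≠ 0 := by rintro rfl; exact hz V.zero_mem
  have hzi : z⁻¹ ∈ V := (V.mem_or_inv_mem z).resolve_left hz
  have hmem : (⟨z⁻¹, hzi⟩ : V) ∈ IsLocalRing.maximalIdeal V := by
    rw [ValuationSubring.valuation_lt_one_iff]
    show V.valuation z⁻¹ < 1
    rw [← ValuationSubring.mem_nonunits_iff, ValuationSubring.mem_nonunits_iff_or, inv_inv]
    exact Or.inr hz
  rw [hbot, Ideal.mem_bot] at hmem
  exact inv_ne_zero hz0 (congrArg Subtype.val hmem)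

/-- In a discrete valuation ring `V` of `E`: for a nonzero non-unit `s` and any `z ∈ E`,
`s ^ N * z ∈ V` for some `N`. -/
theorem vs_exists_pow_mul_mem (V : ValuationSubring E) (h1 : V ≠ ⊤)
    (h2 : IsPrincipalIdealRing V) {s : E} (hs : s ∈ V.nonunits) (hs0 : s ≠ 0) (z : E) :
    ∃ N : ℕ, s ^ N * z ∈ V := by
  haveI := vs_isDVR V h1 h2
  by_cases hz : z ∈ V
  · exact ⟨0, by simpa using hz⟩
  have hz0 : z ≠ 0 := by rintro rfl; exact hz V.zero_mem
  have hzi : z⁻¹ ∈ V := (V.mem_or_inv_mem z).resolve_left hz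
  have hsV : s ∈ V := vs_nonunits_mem hs
  obtain ⟨ϖ, hϖ⟩ := IsDiscreteValuationRing.exists_irreducible V
  have hw0 : (⟨z⁻¹, hzi⟩ : V) ≠ 0 := fun h => inv_ne_zero hz0 (congrArg Subtype.val h)
  have hs0' : (⟨s, hsV⟩ : V) ≠ 0 := fun h => hs0 (congrArg Subtype.val h)
  obtain ⟨n, hn⟩ := IsDiscreteValuationRing.associated_pow_irreducible hw0 hϖ
  obtain ⟨m, hm⟩ := IsDiscreteValuationRing.associated_pow_irreducible hs0' hϖ
  have hsnu : ¬ IsUnit (⟨s, hsV⟩ : V) := by
    intro hu
    obtain ⟨c, hc⟩ := hu.exists_right_inv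
    have h1' : s * (c : E) = 1 := congrArg Subtype.val hc
    have : s⁻¹ ∈ V := by
      have : s⁻¹ = (c : E) := inv_eq_of_mul_eq_one_right h1'
      rw [this]; exact c.2
    rw [ValuationSubring.mem_nonunits_iff_or] at hs
    rcases hs with hs | hs
    · exact hs0 hs
    · exact hs this
  have hm1 : m ≠ 0 := by
    rintro rfl
    rw [pow_zero] at hm
    exact hsnu (hm.symm.isUnit isUnit_one)
  have hdvd1 : ϖ ∣ (⟨s, hsV⟩ : V) := (dvd_pow_self ϖ hm1).trans hm.symm.dvd
  have hdvd2 : (⟨z⁻¹, hzi⟩ : V) ∣ (⟨s, hsV⟩ : V) ^ n :=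
    hn.dvd.trans (pow_dvd_pow_of_dvd hdvd1 n)
  obtain ⟨c, hc⟩ := hdvd2
  refine ⟨n, ?_⟩
  have h3 : s ^ n = z⁻¹ * (c : E) := congrArg Subtype.val hc
  have h4 : s ^ n * z = (c : E) := by
    rw [h3]; field_simp
  rw [h4]; exact c.2

end ValLemmas

end Fermat.Agent.H60.SS2
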