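import Fermat.Agent.H60.SS2.PolyInt
import Fermat.Agent.H11.SS2.Defs

/-!
# P-SS2, row SS2-A1 (helper60) : the height-one primes of `B_𝔪`

For a prime element `f` of `R = B_𝔪` (`locAlg 𝔪`) the discrete valuation ring `R_(f)`
(`primeVal E₀ f hf`) is

* a place centred at `𝔪` if `f ∤ ϖ` (`primeVal_centredAt`);
* a vertical valuation through `𝔪` if `f ∣ ϖ` (`primeVal_isVertical`), provided `R` is regular
  (`B` is integral over `A[y]`, so a component is not contracted to a point: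
  `locAlg_not_dvd_of_regular`).

Also `chart_x2_not_mem_nonunits` : the second parameter of a regular point is a unit on the
branch.
-/

set_option autoImplicit false
set_option linter.unusedSectionVars false
set_option linter.style.haveILetI false

noncomputable section

namespace Fermat.Agent.H60.SS2

open Polynomial IsLocalRing
open Fermat.Agent.H22.KL Fermat.Agent.H45

section LocPrime

variable {A : Type} [CommRing A] [IsDomain A] [IsDiscreteValuationRing A]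
variable {E₀ : Type} [Field E₀] [Algebra A E₀]
variable {y : E₀} (𝔪 : Ideal (chartClosure A E₀ y)) [𝔪.IsPrime]
variable [IsFractionRing ↥(chartClosure A E₀ y) E₀] [IsNoetherianRing ↥(locAlg 𝔪)]

/-- the image of `s ∈ B` in `B_𝔪`. -/
abbrev toLocAlg (s : ↥(chartClosure A E₀ y)) : ↥(locAlg 𝔪) :=
  algebraMap ↥(chartClosure A E₀ y) ↥(locAlg 𝔪) s

theorem locAlg_mem_of_dvd {f : ↥(locAlg 𝔪)} (hf : Prime f) {s : ↥(chartClosure A E₀ y)}
    (h : f ∣ toLocAlg 𝔪 s) : s ∈ 𝔪 := by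
  rw [← algebraMap_mem_maximalIdeal_iff 𝔪 s]
  obtain ⟨c, hc⟩ := h
  show toLocAlg 𝔪 s ∈ maximalIdeal ↥(locAlg 𝔪)
  rw [hc]
  exact (maximalIdeal ↥(locAlg 𝔪)).mul_mem_right c ((IsLocalRing.mem_maximalIdeal f).2 hf.not_isUnit)

theorem primeVal_nonunits_iff' {f : ↥(locAlg 𝔪)} (hf : Prime f) (s : ↥(chartClosure A E₀ y)) :
    (s : E₀) ∈ (primeVal E₀ f hf).nonunits ↔ f ∣ toLocAlg 𝔪 s :=
  primeVal_mem_nonunits_iff hf (toLocAlg 𝔪 s)

/-- `R_(f)` passes through `𝔪`. -/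
theorem primeVal_through {f : ↥(locAlg 𝔪)} (hf : Prime f) :
    Through A E₀ y 𝔪 (primeVal E₀ f hf) := fun s hs =>
  locAlg_mem_of_dvd 𝔪 hf ((primeVal_nonunits_iff' 𝔪 hf s).1 hs)

theorem primeVal_coe_mem {f : ↥(locAlg 𝔪)} (hf : Prime f) (s : ↥(chartClosure A E₀ y)) :
    (s : E₀) ∈ primeVal E₀ f hf :=
  algebraMap_mem_primeVal hf (toLocAlg 𝔪 s)

/-- If `f ∤ ϖ`, then `R_(f)` is a place centred at `𝔪`. -/
theorem primeVal_centredAt (hinj : Function.Injective (algebraMap A E₀)) {ϖ : A}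
    (hϖ : Irreducible ϖ) {f : ↥(locAlg 𝔪)} (hf : Prime f)
    (hfϖ : ¬ f ∣ toLocAlg 𝔪 (algebraMap A ↥(chartClosure A E₀ y) ϖ)) :
    CentredAt A E₀ y 𝔪 (primeVal E₀ f hf) := by
  refine ⟨⟨⟨primeVal_ne_top hf, primeVal_isPrincipalIdealRing hf, fun a ha => ?_⟩, ?_⟩,
    primeVal_through 𝔪 hf⟩
  · obtain ⟨n, u, hu⟩ := IsDiscreteValuationRing.eq_unit_mul_pow_irreducible ha hϖ
    have hnd : ¬ f ∣ toLocAlg 𝔪 (algebraMap A ↥(chartClosure A E₀ y) a) := by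
      intro h
      rw [hu] at h
      simp only [toLocAlg, map_mul, map_pow] at h
      rcases hf.dvd_or_dvd h with h | h
      · have hunit : IsUnit (toLocAlg 𝔪 (algebraMap A ↥(chartClosure A E₀ y) (u : A))) :=
          (u.isUnit.map (algebraMap A ↥(chartClosure A E₀ y))).map _
        exact hf.not_isUnit (isUnit_of_dvd_unit h hunit)
      · exact hfϖ (hf.dvd_of_dvd_pow h)
    have ha0 : algebraMap A E₀ a ≠ 0 := fun h => ha (hinj (by rw [h, map_zero]))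
    refine (primeVal_unit_iff hf ha0).2
      ⟨toLocAlg 𝔪 (algebraMap A ↥(chartClosure A E₀ y) a), 1, hnd, hf.not_dvd_one, ?_⟩
    rw [map_one, mul_one]
    rfl
  · exact primeVal_coe_mem 𝔪 hf (chartGen A E₀ y)

/-- At a regular point, no prime element `f ∣ ϖ` divides a function `aeval y H`,
`H ∉ ϖ A[X]`. -/
theorem locAlg_not_dvd_of_regular {ϖ : A} (hϖ : Irreducible ϖ)
    {s₁ s₂ : ↥(chartClosure A E₀ y)} (hs₁ : s₁ ∈ 𝔪) (hs₂ : s₂ ∈ 𝔪)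
    (hprime : Prime (toLocAlg 𝔪 s₁)) (hnd : ¬ toLocAlg 𝔪 s₁ ∣ toLocAlg 𝔪 s₂)
    {f : ↥(locAlg 𝔪)} (hf : Prime f)
    (hfϖ : f ∣ toLocAlg 𝔪 (algebraMap A ↥(chartClosure A E₀ y) ϖ))
    {H : A[X]} (hHϖ : ¬ (C ϖ ∣ H)) : ¬ f ∣ toLocAlg 𝔪 (evB A E₀ y H) := by
  intro hfH
  haveI hfp : (Ideal.span {f}).IsPrime := Ideal.isPrime_span_singleton_of_prime hf
  set Q : Ideal ↥(chartClosure A E₀ y) :=
    (Ideal.span {f}).comap (algebraMap ↥(chartClosure A E₀ y) ↥(locAlg 𝔪)) with hQ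
  haveI hQp : Q.IsPrime := Ideal.comap_isPrime _ _
  have hQmem : ∀ s : ↥(chartClosure A E₀ y), s ∈ Q ↔ f ∣ toLocAlg 𝔪 s := by
    intro s
    rw [hQ, Ideal.mem_comap, Ideal.mem_span_singleton]
  have hQle : Q ≤ 𝔪 := fun s hs => locAlg_mem_of_dvd 𝔪 hf ((hQmem s).1 hs)
  have hQeq : Q = 𝔪 :=
    chart_eq_of_le hϖ 𝔪 (Ideal.IsPrime.ne_top ‹_›) Q hQle ((hQmem _).2 hfϖ) ((hQmem _).2 hfH) hHϖ
  have h1 : f ∣ toLocAlg 𝔪 s₁ := (hQmem s₁).1 (hQeq ▸ hs₁)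
  have h2 : f ∣ toLocAlg 𝔪 s₂ := (hQmem s₂).1 (hQeq ▸ hs₂)
  obtain ⟨c, hc⟩ := h1
  rcases hprime.irreducible.isUnit_or_isUnit hc with hu | hu
  · exact hf.not_isUnit hu
  · -- `f = s₁ c⁻¹`
    obtain ⟨c', hc'⟩ := hu.exists_right_inv
    have hf' : f = toLocAlg 𝔪 s₁ * c' := by
      rw [hc, mul_assoc, hc', mul_one]
    exact hnd (Dvd.dvd.trans ⟨c', hf'⟩ h2)

/-- If `f ∣ ϖ` (and `B_𝔪` is regular), then `R_(f)` is a vertical valuation. -/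
theorem primeVal_isVertical (hy : Transcendental A y) {ϖ : A}
    {f : ↥(locAlg 𝔪)} (hf : Prime f)
    (hfϖ : f ∣ toLocAlg 𝔪 (algebraMap A ↥(chartClosure A E₀ y) ϖ))
    (hnd : ∀ H : A[X], ¬ (C ϖ ∣ H) → ¬ f ∣ toLocAlg 𝔪 (evB A E₀ y H)) :
    Fermat.Agent.H11.SS2.IsVertical A E₀ ϖ y (primeVal E₀ f hf) := by
  refine ⟨primeVal_ne_top hf, primeVal_isPrincipalIdealRing hf, fun z hz => ?_, ?_⟩
  · obtain ⟨H, hHϖ, hint⟩ := (Fermat.Agent.H87.KL.mem_gaussClosure_iff hy ϖ z).1 hz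
    have hmem : aeval y H * z ∈ chartClosure A E₀ y :=
      (Fermat.Agent.H87.KL.mem_chartClosure_iff y _).2 hint
    refine ⟨toLocAlg 𝔪 ⟨_, hmem⟩, toLocAlg 𝔪 (evB A E₀ y H), hnd H hHϖ, ?_⟩
    show z * ((evB A E₀ y H : ↥(chartClosure A E₀ y)) : E₀) = aeval y H * z
    rw [coe_evB, mul_comm]
  · exact (primeVal_nonunits_iff' 𝔪 hf _).2 hfϖ

end LocPrime

section Degenerate

variable {A : Type} [CommRing A] [IsDomain A] [IsDiscreteValuationRing A]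
variable {E₀ : Type} [Field E₀] [Algebra A E₀]

/-- The second parameter of a regular point is a unit on the branch: if `𝔪 B_𝔪 = (x1, x2)` and
`x1 ∈ 𝔪_V` for a valuation ring `V ⊇ C(y)` through `𝔪`, then `x2 ∉ 𝔪_V`. -/
theorem chart_x2_not_mem_nonunits {y : E₀} (hy : Transcendental A y) {ϖ : A}
    (hϖ : Irreducible ϖ) (𝔪 : Ideal (chartClosure A E₀ y)) (h𝔪 : 𝔪.IsMaximal)
    [IsFractionRing ↥(chartClosure A E₀ y) E₀]
    (V : ValuationSubring E₀) (hCV : ∀ z ∈ gaussClosure A E₀ ϖ y, z ∈ V)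
    (hBV : ∀ s : ↥(chartClosure A E₀ y), (s : E₀) ∈ V) (hthr : Through A E₀ y 𝔪 V)
    {x1 x2 : E₀} (hx1 : x1 ∈ V.nonunits)
    (hgen : ∀ s : ↥(chartClosure A E₀ y), s ∈ 𝔪 →
      ∃ c₁ c₂ : E₀, InLoc A E₀ y 𝔪 c₁ ∧ InLoc A E₀ y 𝔪 c₂ ∧ (s : E₀) = c₁ * x1 + c₂ * x2) :
    x2 ∉ V.nonunits := by
  intro hx2
  haveI h𝔪p : 𝔪.IsPrime := h𝔪.isPrime
  obtain ⟨H, hHm, hHϖ⟩ := chart_exists_mem hϖ 𝔪 h𝔪
  obtain ⟨c₁, c₂, hc₁, hc₂, hs⟩ := hgen _ hHm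
  have hc₁V : c₁ ∈ V := locAlg_le_val 𝔪 V hBV hthr (locOf 𝔪 c₁ hc₁)
  have hc₂V : c₂ ∈ V := locAlg_le_val 𝔪 V hBV hthr (locOf 𝔪 c₂ hc₂)
  rw [coe_evB] at hs
  have hnon : aeval y H ∈ V.nonunits := by
    rw [hs, mul_comm c₁, mul_comm c₂]
    exact vs_nonunits_add (vs_mem_nonunits_of_mul hx1 hc₁V) (vs_mem_nonunits_of_mul hx2 hc₂V)
  have hH0 : H ≠ 0 := by
    rintro rfl
    exact hHϖ (dvd_zero _)
  have hne : aeval y H ≠ 0 := by
    intro h0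
    exact hH0 ((transcendental_iff_injective.1 hy) (by rw [h0, map_zero]))
  have hinvC : (aeval y H)⁻¹ ∈ gaussClosure A E₀ ϖ y := by
    rw [Fermat.Agent.H87.KL.mem_gaussClosure_iff hy ϖ]
    refine ⟨H, hHϖ, ?_⟩
    rw [mul_inv_cancel₀ hne]
    have := Fermat.Agent.H87.KL.IntX.map (A := A) y (1 : A[X])
    rwa [map_one] at this
  exact vs_not_nonunits_of_inv_mem hne (hCV _ hinvC) hnon

end Degenerate

end Fermat.Agent.H60.SS2
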