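import Fermat.Agent.H60.SS2.LocPrime

/-!
# P-SS2, row SS2-A1 (helper60) : REGFACT

`regFact : Fermat.Agent.H11.SS2.RegFactStatement` (unconditional): at a regular point `𝔪` of
`B(y)`, a function `u ≠ 0` with `n ∣ ord_{V'} u` at every place `V'` centred at `𝔪` and at every
vertical valuation `V'` through `𝔪` is a unit of `B_𝔪` times an `n`-th power.

Proof: `R = B_𝔪` is a noetherian local domain with `𝔪 R = (x1, x2)`, `x1` prime, `x1 ∤ x2`, hence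
every nonzero non-unit of `R` is divisible by a prime element (`reg2_exists_prime_dvd`); for a
prime element `f` the discrete valuation ring `R_(f)` is a place centred at `𝔪` (`f ∤ ϖ`) or a
vertical valuation through `𝔪` (`f ∣ ϖ`); induction on the number of prime factors
(`reg2_exists_root_unit`).

Also: `isRegPoint60_of_isRegPoint11`, the adapter from helper11's structure to
`Fermat.Agent.H60.SS2.IsRegPoint`, and `regFactCore : RegFactCoreStatement`.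
-/

set_option autoImplicit false
set_option linter.unusedSectionVars false
set_option linter.style.haveILetI false

noncomputable section

namespace Fermat.Agent.H60.SS2

open Polynomial IsLocalRing
open Fermat.Agent.H22.KL Fermat.Agent.H45

/-- **REGFACT**, from the clauses of a regular point. -/
theorem regFact_aux
    (A : Type) [CommRing A] [IsDomain A] [IsDiscreteValuationRing A]
    (E₀ : Type) [Field E₀] [Algebra A E₀] [CharZero E₀]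
    (hinj : Function.Injective (algebraMap A E₀))
    (ϖ : A) (hϖ : Irreducible ϖ) (y : E₀) (hy : Transcendental A y)
    (hfd : ∃ n : ℕ, Nonempty (Module.Basis (Fin n) (chartField A E₀ y) E₀))
    (𝔪 : Ideal (chartClosure A E₀ y)) (h𝔪 : 𝔪.IsMaximal)
    (V : ValuationSubring E₀) (x1 x2 : E₀)
    (hCV : ∀ z ∈ gaussClosure A E₀ ϖ y, z ∈ V) (hthr : Through A E₀ y 𝔪 V)
    (hx1 : IsUniformiser E₀ V x1) (hx1B : x1 ∈ chartClosure A E₀ y)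
    (hx2B : x2 ∈ chartClosure A E₀ y) (hx2m : (⟨x2, hx2B⟩ : chartClosure A E₀ y) ∈ 𝔪)
    (hx2V : x2 ∉ V.nonunits)
    (hp : ∀ s : chartClosure A E₀ y, (s : E₀) ∈ V.nonunits →
      ∃ b : chartClosure A E₀ y, b ∉ 𝔪 ∧ ∃ c : chartClosure A E₀ y, (b : E₀) * s = x1 * c)
    (hr : ∀ s : chartClosure A E₀ y, s ∈ 𝔪 →
      ∃ b : chartClosure A E₀ y, b ∉ 𝔪 ∧ ∃ c₁ c₂ : chartClosure A E₀ y,
        (b : E₀) * s = x1 * c₁ + x2 * c₂)
    (n : ℕ) (u : E₀) (hu : u ≠ 0)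
    (hpl : ∀ V' : ValuationSubring E₀, CentredAt A E₀ y 𝔪 V' → OrdDvd E₀ V' n u)
    (hvert : ∀ V' : ValuationSubring E₀, Fermat.Agent.H11.SS2.IsVertical A E₀ ϖ y V' →
      Through A E₀ y 𝔪 V' → OrdDvd E₀ V' n u) :
    ∃ p : E₀, p ≠ 0 ∧ IsLocUnit A E₀ y 𝔪 (u * p ^ n) := by
  classical
  haveI h𝔪p : 𝔪.IsPrime := h𝔪.isPrime
  haveI hFR : IsFractionRing ↥(chartClosure A E₀ y) E₀ :=
    Fermat.Agent.H41.SS.chartClosure_isFractionRing A E₀ y hy hfd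
  haveI hNoeth : IsNoetherianRing ↥(chartClosure A E₀ y) :=
    Fermat.Agent.H41.SS.chartClosure_isNoetherianRing A E₀ hinj ϖ hϖ y hy hfd
  haveI hRN : IsNoetherianRing ↥(locAlg 𝔪) := locAlg_isNoetherianRing 𝔪
  obtain ⟨hBC, -, -⟩ := Fermat.Agent.H89.gaussClosureStatement A E₀ hinj ϖ hϖ y hy
  have hBV : ∀ s : ↥(chartClosure A E₀ y), (s : E₀) ∈ V := fun s => hCV _ (hBC _ s.2)
  obtain ⟨hx10, hx1V, hx1u⟩ := hx1
  have hx1in : InLoc A E₀ y 𝔪 x1 := inLoc_of_mem h𝔪p.ne_top hx1B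
  have hx2in : InLoc A E₀ y 𝔪 x2 := inLoc_of_mem h𝔪p.ne_top hx2B
  have hs1m : (⟨x1, hx1B⟩ : ↥(chartClosure A E₀ y)) ∈ 𝔪 := hthr ⟨x1, hx1B⟩ hx1V
  have e1 : locOf 𝔪 x1 hx1in = toLocAlg 𝔪 ⟨x1, hx1B⟩ := Subtype.ext rfl
  have e2 : locOf 𝔪 x2 hx2in = toLocAlg 𝔪 ⟨x2, hx2B⟩ := Subtype.ext rfl
  have hdvd := locAlg_dvd_iff 𝔪 V hBV hthr hx1B hx1V hp
  have hprime : Prime (locOf 𝔪 x1 hx1in) := locAlg_prime 𝔪 V hBV hthr hx1B hx1V hp hx10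
  have hx1m : locOf 𝔪 x1 hx1in ∈ maximalIdeal ↥(locAlg 𝔪) := by
    rw [e1]; exact (algebraMap_mem_maximalIdeal_iff 𝔪 _).2 hs1m
  have hx2m' : locOf 𝔪 x2 hx2in ∈ maximalIdeal ↥(locAlg 𝔪) := by
    rw [e2]; exact (algebraMap_mem_maximalIdeal_iff 𝔪 _).2 hx2m
  have hx2nd : ¬ locOf 𝔪 x1 hx1in ∣ locOf 𝔪 x2 hx2in := by
    rw [hdvd]; exact hx2V
  have hmax := locAlg_hmax_of_reg 𝔪 hx1in hx2in hx1m hx2m' hr
  have hord : ∀ (f : ↥(locAlg 𝔪)) (hf : Prime f), ∃ t : E₀, t ≠ 0 ∧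
      u * t ^ n ∈ primeVal E₀ f hf ∧ (u * t ^ n)⁻¹ ∈ primeVal E₀ f hf := by
    intro f hf
    by_cases hfϖ : f ∣ toLocAlg 𝔪 (algebraMap A ↥(chartClosure A E₀ y) ϖ)
    · refine hvert _ (primeVal_isVertical 𝔪 hy hf hfϖ fun H hH => ?_) (primeVal_through 𝔪 hf)
      exact locAlg_not_dvd_of_regular 𝔪 hϖ hs1m hx2m (e1 ▸ hprime) (e1 ▸ e2 ▸ hx2nd) hf hfϖ hH
    · exact hpl _ (primeVal_centredAt 𝔪 hinj hϖ hf hfϖ)
  obtain ⟨p, hp0, e, he, hpe⟩ := reg2_exists_root_unit hmax hprime hx2nd n u hu hord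
  refine ⟨p, hp0, ?_⟩
  rw [hpe]
  obtain ⟨h1, h2⟩ := (locAlg_isUnit_iff 𝔪 e).1 he
  exact ⟨h1, (mem_locAlg_iff 𝔪).1 e.2, h2⟩

/-- The adapter from helper11's `IsRegPoint` to `Fermat.Agent.H60.SS2.IsRegPoint`. -/
theorem isRegPoint60_of_isRegPoint11
    (A : Type) [CommRing A] [IsDomain A] [IsDiscreteValuationRing A]
    (E₀ : Type) [Field E₀] [Algebra A E₀] [CharZero E₀]
    (hinj : Function.Injective (algebraMap A E₀))
    (ϖ : A) (hϖ : Irreducible ϖ) (y : E₀) (hy : Transcendental A y)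
    (hfd : ∃ n : ℕ, Nonempty (Module.Basis (Fin n) (chartField A E₀ y) E₀))
    (𝔪 : Ideal (chartClosure A E₀ y)) (h𝔪 : 𝔪.IsMaximal)
    (V : ValuationSubring E₀) (x1 x2 : E₀)
    (hreg : Fermat.Agent.H11.SS2.IsRegPoint A E₀ ϖ y 𝔪 V x1 x2) :
    IsRegPoint A E₀ ϖ y 𝔪 V x1 x2 := by
  haveI h𝔪p : 𝔪.IsPrime := h𝔪.isPrime
  haveI hFR : IsFractionRing ↥(chartClosure A E₀ y) E₀ :=
    Fermat.Agent.H41.SS.chartClosure_isFractionRing A E₀ y hy hfd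
  obtain ⟨hBC, -, -⟩ := Fermat.Agent.H89.gaussClosureStatement A E₀ hinj ϖ hϖ y hy
  obtain ⟨hVtop, hVpir, hCV, -⟩ := hreg.vert
  have hBV : ∀ s : ↥(chartClosure A E₀ y), (s : E₀) ∈ V := fun s => hCV _ (hBC _ s.2)
  have hthr : Through A E₀ y 𝔪 V := hreg.thru
  obtain ⟨hx10, hx1V, hx1u⟩ := hreg.unif
  have hgen : ∀ s : ↥(chartClosure A E₀ y), s ∈ 𝔪 →
      ∃ c₁ c₂ : E₀, InLoc A E₀ y 𝔪 c₁ ∧ InLoc A E₀ y 𝔪 c₂ ∧ (s : E₀) = c₁ * x1 + c₂ * x2 :=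
    hreg.gen
  refine
    { vert := ⟨hVtop, hCV, hthr⟩
      pir := hVpir
      unif := hreg.unif
      x1_mem := hreg.mem₁
      x2_mem := ⟨⟨x2, hreg.mem₂⟩, hreg.mem_max₂ hreg.mem₂, rfl⟩
      x2_unit := chart_x2_not_mem_nonunits hy hϖ 𝔪 h𝔪 V hCV hBV hthr hx1V hgen
      prin := ?_
      reg := ?_ }
  · intro s hs
    obtain ⟨b, hb, hbz⟩ := hreg.prin s hs
    refine ⟨b, hb, ⟨_, hbz⟩, ?_⟩
    show (b : E₀) * s = x1 * ((b : E₀) * ((s : E₀) / x1))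
    field_simp
  · intro s hs
    obtain ⟨c₁, c₂, ⟨b₁, hb₁, hc₁⟩, ⟨b₂, hb₂, hc₂⟩, h⟩ := hgen s hs
    refine ⟨b₁ * b₂, fun h => (h𝔪p.mem_or_mem h).elim hb₁ hb₂, b₂ * ⟨_, hc₁⟩, b₁ * ⟨_, hc₂⟩, ?_⟩
    push_cast
    rw [h]; ring

/-- **REGFACT** (row SS2-A1 (B)), helper11's exact statement.  Unconditional. -/
theorem regFact : Fermat.Agent.H11.SS2.RegFactStatement := by
  intro A _ _ _ E₀ _ _ _ hinj ϖ hϖ y hy hfd 𝔪 h𝔪 _ V x1 x2 hreg n _ u hu hpl hvert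
  have h60 := isRegPoint60_of_isRegPoint11 A E₀ hinj ϖ hϖ y hy hfd 𝔪 h𝔪 V x1 x2 hreg
  obtain ⟨s, hs, hsx⟩ := h60.x2_mem
  have hx2B : x2 ∈ chartClosure A E₀ y := hsx ▸ s.2
  have hx2m : (⟨x2, hx2B⟩ : chartClosure A E₀ y) ∈ 𝔪 := by
    have : (⟨x2, hx2B⟩ : chartClosure A E₀ y) = s := Subtype.ext hsx.symm
    rw [this]; exact hs
  exact regFact_aux A E₀ hinj ϖ hϖ y hy hfd 𝔪 h𝔪 V x1 x2 h60.vert.2.1 h60.vert.2.2 h60.unif
    h60.x1_mem hx2B hx2m h60.x2_unit h60.prin h60.reg n u hu hpl hvert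

/-- **REGFACT**, core form for `Fermat.Agent.H60.SS2.IsRegPoint`. -/
theorem regFactCore : RegFactCoreStatement := by
  intro A _ _ _ E₀ _ _ _ hinj ϖ hϖ y hy hfd 𝔪 h𝔪 _ V x1 x2 h60 u hu n _ hpl hvert
  obtain ⟨s, hs, hsx⟩ := h60.x2_mem
  have hx2B : x2 ∈ chartClosure A E₀ y := hsx ▸ s.2
  have hx2m : (⟨x2, hx2B⟩ : chartClosure A E₀ y) ∈ 𝔪 := by
    have : (⟨x2, hx2B⟩ : chartClosure A E₀ y) = s := Subtype.ext hsx.symm
    rw [this]; exact hs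
  refine regFact_aux A E₀ hinj ϖ hϖ y hy hfd 𝔪 h𝔪 V x1 x2 h60.vert.2.1 h60.vert.2.2 h60.unif
    h60.x1_mem hx2B hx2m h60.x2_unit h60.prin h60.reg n u hu hpl ?_
  intro V' hV' hthr'
  exact hvert V' hV'.2.1 ⟨hV'.1, hV'.2.2.1, hthr'⟩

end Fermat.Agent.H60.SS2
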