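import Fermat.Agent.H60.SS2.LocRing

/-!
# P-SS2, row SS2-A1 (helper60) : `B(y)` over `A[X]` (going up)

* `evB y : A[X] →+* B(y)`, `X ↦ y`, is integral (`evB_isIntegral`).
* `poly_isMaximal_of_mem` : a prime ideal of `A[X]` containing `ϖ` and some `H ∉ ϖ A[X]` is
  maximal.
* `poly_exists_mem_not_dvd` : a maximal ideal of `A[X]` containing `ϖ` contains some
  `H ∉ ϖ A[X]`.
* `chart_exists_unit_mem` : a maximal ideal `𝔪 ∋ ϖ` of `B(y)` contains an element `h ≠ 0` with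
  `h⁻¹ ∈ C(y)` (a function which is a unit along the whole special fibre).
* `chart_comap_eq_of_le` : a prime ideal `Q ⊆ 𝔪` of `B(y)` containing `ϖ` and some
  `aeval y H`, `H ∉ ϖ A[X]`, is equal to `𝔪`.
-/

set_option autoImplicit false
set_option linter.unusedSectionVars false
set_option linter.style.haveILetI false

noncomputable section

namespace Fermat.Agent.H60.SS2

open Polynomial IsLocalRing
open Fermat.Agent.H22.KL Fermat.Agent.H45
open Fermat.Agent.H87.KL (evX IntX)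

section EvB

variable (A : Type) [CommRing A] (E₀ : Type) [Field E₀] [Algebra A E₀]

/-- `y` as an element of `B(y)`. -/
def chartGen (y : E₀) : ↥(chartClosure A E₀ y) :=
  ⟨y, (Fermat.Agent.H87.KL.mem_chartClosure_iff y y).2 (by
    have := Fermat.Agent.H87.KL.IntX.map (A := A) y (X : A[X])
    rwa [aeval_X] at this)⟩

/-- The ring homomorphism `A[X] → B(y)`, `X ↦ y`. -/
def evB (y : E₀) : A[X] →+* ↥(chartClosure A E₀ y) :=
  (aeval (chartGen A E₀ y) : A[X] →ₐ[A] ↥(chartClosure A E₀ y)).toRingHom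

variable {A E₀}

@[simp] theorem coe_evB (y : E₀) (H : A[X]) : ((evB A E₀ y H : ↥(chartClosure A E₀ y)) : E₀)
    = aeval y H :=
  aeval_subalgebra_coe H (chartClosure A E₀ y) (chartGen A E₀ y)

theorem val_comp_evB (y : E₀) :
    ((chartClosure A E₀ y).val : ↥(chartClosure A E₀ y) →+* E₀).comp (evB A E₀ y)
      = evX (A := A) y := by
  ext H
  · simp [evB, evX]
  · simp [evB, evX, chartGen]

theorem evB_isIntegral (y : E₀) : (evB A E₀ y).IsIntegral := by
  intro b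
  obtain ⟨P, hP, hPb⟩ := (Fermat.Agent.H87.KL.mem_chartClosure_iff y (b : E₀)).1 b.2
  refine ⟨P, hP, Subtype.ext ?_⟩
  have h1 := Polynomial.hom_eval₂ P (evB A E₀ y)
    ((chartClosure A E₀ y).val : ↥(chartClosure A E₀ y) →+* E₀) b
  rw [val_comp_evB] at h1
  show ((chartClosure A E₀ y).val : ↥(chartClosure A E₀ y) →+* E₀)
    (Polynomial.eval₂ (evB A E₀ y) b P) = 0
  rw [h1]
  exact hPb

end EvB

section Poly

variable {A : Type} [CommRing A] [IsDomain A] [IsDiscreteValuationRing A]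

theorem poly_ker_map {ϖ : A} (hϖ : Irreducible ϖ) :
    RingHom.ker (mapRingHom (IsLocalRing.residue A)) = Ideal.span {(C ϖ : A[X])} := by
  rw [Polynomial.ker_mapRingHom, IsLocalRing.ker_residue,
    ← Fermat.Agent.H91.KLNorm.span_eq_maximalIdeal A hϖ, Ideal.map_span, Set.image_singleton]

/-- A prime ideal of `A[X]` containing `ϖ` and some `H ∉ ϖ A[X]` is maximal. -/
theorem poly_isMaximal_of_mem {ϖ : A} (hϖ : Irreducible ϖ) (P : Ideal A[X]) [hP : P.IsPrime]
    (hϖP : (C ϖ : A[X]) ∈ P) {H : A[X]} (hH : H ∈ P) (hHϖ : ¬ (C ϖ ∣ H)) : P.IsMaximal := by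
  set φ : A[X] →+* (IsLocalRing.ResidueField A)[X] := mapRingHom (IsLocalRing.residue A) with hφ
  have hsurj : Function.Surjective φ := map_surjective _ IsLocalRing.residue_surjective
  have hker : RingHom.ker φ = Ideal.span {(C ϖ : A[X])} := poly_ker_map hϖ
  have hkerP : RingHom.ker φ ≤ P := by
    rw [hker, Ideal.span_le, Set.singleton_subset_iff]; exact hϖP
  haveI hP' : (P.map φ).IsPrime := Ideal.map_isPrime_of_surjective hsurj hkerP
  have hne : P.map φ ≠ ⊥ := by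
    intro h
    have h1 : φ H ∈ P.map φ := Ideal.mem_map_of_mem φ hH
    rw [h, Ideal.mem_bot] at h1
    have h2 : H ∈ RingHom.ker φ := h1
    rw [hker, Ideal.mem_span_singleton] at h2
    exact hHϖ h2
  haveI hmax : (P.map φ).IsMaximal := IsPrime.to_maximal_ideal hne
  have hcomap : (P.map φ).comap φ = P := by
    rw [Ideal.comap_map_of_surjective φ hsurj]
    have : Ideal.comap φ ⊥ = RingHom.ker φ := rfl
    rw [this]
    exact sup_eq_left.2 hkerP
  rw [← hcomap]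
  exact Ideal.comap_isMaximal_of_surjective φ hsurj

/-- A maximal ideal of `A[X]` containing `ϖ` contains some `H ∉ ϖ A[X]`. -/
theorem poly_exists_mem_not_dvd {ϖ : A} (hϖ : Irreducible ϖ) (P : Ideal A[X]) (hP : P.IsMaximal) :
    ∃ H ∈ P, ¬ (C ϖ ∣ H) := by
  by_contra hcon
  push Not at hcon
  have hX : (X : A[X]) ∉ P := by
    intro h
    obtain ⟨G, hG⟩ := hcon X h
    have h1 := congrArg (fun p : A[X] => p.coeff 1) hG
    simp only [coeff_X_one, coeff_C_mul] at h1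
    exact hϖ.not_isUnit (IsUnit.of_mul_eq_one _ h1.symm)
  obtain ⟨G, i, hi, hGi⟩ := hP.exists_inv hX
  obtain ⟨G', hG'⟩ := hcon i hi
  have h1 := congrArg (fun p : A[X] => p.coeff 0) hGi
  simp only [coeff_add, mul_coeff_zero, coeff_X_zero, mul_zero, zero_add, coeff_one_zero, hG',
    coeff_C_zero] at h1
  exact hϖ.not_isUnit (IsUnit.of_mul_eq_one _ h1)

end Poly

section Chart

variable {A : Type} [CommRing A] [IsDomain A] [IsDiscreteValuationRing A]
variable {E₀ : Type} [Field E₀] [Algebra A E₀]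

/-- A prime ideal `Q ≤ 𝔪` of `B(y)` containing `ϖ` and some `aeval y H`, `H ∉ ϖ A[X]`, is equal
to the maximal ideal `𝔪`. -/
theorem chart_eq_of_le {ϖ : A} (hϖ : Irreducible ϖ) {y : E₀}
    (𝔪 : Ideal (chartClosure A E₀ y)) (h𝔪 : 𝔪 ≠ ⊤) (Q : Ideal (chartClosure A E₀ y)) [Q.IsPrime]
    (hQ : Q ≤ 𝔪) (hϖQ : algebraMap A (chartClosure A E₀ y) ϖ ∈ Q) {H : A[X]}
    (hH : evB A E₀ y H ∈ Q) (hHϖ : ¬ (C ϖ ∣ H)) : Q = 𝔪 := by
  haveI hcp : (Q.comap (evB A E₀ y)).IsPrime := Ideal.comap_isPrime _ _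
  have hϖ' : (C ϖ : A[X]) ∈ Q.comap (evB A E₀ y) := by
    rw [Ideal.mem_comap]
    have : evB A E₀ y (C ϖ) = algebraMap A (chartClosure A E₀ y) ϖ := by
      simp [evB]
    rw [this]; exact hϖQ
  have hmaxc : (Q.comap (evB A E₀ y)).IsMaximal :=
    poly_isMaximal_of_mem hϖ _ hϖ' (Ideal.mem_comap.2 hH) hHϖ
  have hQmax : Q.IsMaximal :=
    Ideal.isMaximal_of_isIntegral_of_isMaximal_comap' (evB A E₀ y) (evB_isIntegral y) Q hmaxc
  exact hQmax.eq_of_le h𝔪 hQ

/-- A maximal ideal `𝔪 ∋ ϖ` of `B(y)` contains some `aeval y H` with `H ∉ ϖ A[X]`. -/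
theorem chart_exists_mem {ϖ : A} (hϖ : Irreducible ϖ) {y : E₀}
    (𝔪 : Ideal (chartClosure A E₀ y)) (h𝔪 : 𝔪.IsMaximal) :
    ∃ H : A[X], evB A E₀ y H ∈ 𝔪 ∧ ¬ (C ϖ ∣ H) := by
  haveI := h𝔪
  have hmaxc : (𝔪.comap (evB A E₀ y)).IsMaximal :=
    Ideal.isMaximal_comap_of_isIntegral_of_isMaximal' (evB A E₀ y) (evB_isIntegral y) 𝔪
  obtain ⟨H, hH, hHϖ⟩ := poly_exists_mem_not_dvd hϖ _ hmaxc
  exact ⟨H, Ideal.mem_comap.1 hH, hHϖ⟩

end Chart

end Fermat.Agent.H60.SS2
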