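import Mathlib
import Fermat.Agent.H71.SS.RegPoint

/-!
# P-SS2, row SS2-A1 (helper60) : a two-dimensional regular local ring is factorial

Mathlib only.  `R` a noetherian local domain with `𝔪 = (x1, x2)`, `x1` a prime element,
`x1 ∤ x2`.  Then every nonzero non-unit of `R` is divisible by a prime element
(`reg2_exists_prime_dvd`): a minimal prime `P` over `(w)` is not `𝔪` (Krull's principal ideal
theorem), so `x1 ∉ P` or `P = (x1)`; in the first case `P = f R + x1 P` for an `f ∈ P` of
minimal order modulo `x1` (the ring `R / x1` is a discrete valuation ring with uniformiser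
`x2`), and `P = f R` by Nakayama.
-/

set_option autoImplicit false
set_option linter.unusedSectionVars false
set_option linter.style.haveILetI false

namespace Fermat.Agent.H60.SS2

open IsLocalRing

section LocalUFD

variable {R : Type*} [CommRing R] [IsDomain R] [IsLocalRing R] [IsNoetherianRing R]
variable {x1 x2 : R}

/-- Units lift along `R → R / I` for a proper ideal `I` of a local ring. -/
theorem reg2_isUnit_of_isUnit_mk {I : Ideal R} (hI : I ≠ ⊤) {w : R}
    (h : IsUnit (Ideal.Quotient.mk I w)) : IsUnit w := by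
  by_contra hwn
  have hwm : w ∈ maximalIdeal R := (IsLocalRing.mem_maximalIdeal w).2 hwn
  obtain ⟨z, hz⟩ := h.exists_right_inv
  obtain ⟨z', rfl⟩ := Ideal.Quotient.mk_surjective z
  rw [← map_mul, ← map_one (Ideal.Quotient.mk I), Ideal.Quotient.eq] at hz
  have hIm : I ≤ maximalIdeal R := IsLocalRing.le_maximalIdeal hI
  have h1m : (1 : R) ∈ maximalIdeal R := by
    have : (1 : R) = w * z' - (w * z' - 1) := by ring
    rw [this]
    exact (maximalIdeal R).sub_mem ((maximalIdeal R).mul_mem_right z' hwm) (hIm hz)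
  exact (IsLocalRing.mem_maximalIdeal _).1 h1m isUnit_one

theorem reg2_x1_mem (hmax : maximalIdeal R = Ideal.span {x1, x2}) : x1 ∈ maximalIdeal R := by
  rw [hmax]; exact Ideal.subset_span (by simp)

theorem reg2_x2_mem (hmax : maximalIdeal R = Ideal.span {x1, x2}) : x2 ∈ maximalIdeal R := by
  rw [hmax]; exact Ideal.subset_span (by simp)

/-- Modulo `x1`, every element not divisible by `x1` is a unit times a power of `x2`. -/
theorem reg2_exists_pow_mul_unit_mod (hmax : maximalIdeal R = Ideal.span {x1, x2}) {r : R}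
    (hr : ¬ x1 ∣ r) : ∃ (k : ℕ) (e : R), IsUnit e ∧ x1 ∣ r - x2 ^ k * e := by
  have hmax' : maximalIdeal R = Ideal.span {x2, x1} := by rw [hmax, Set.pair_comm]
  set I : Ideal R := Ideal.span {x1 - x2 * 0} with hI
  have hIeq : I = Ideal.span {x1} := by rw [hI]; congr 2; ring
  have hne : I ≠ ⊤ := Fermat.Agent.H71.SS.regPoint_span_ne_top hmax' 0
  haveI : Nontrivial (R ⧸ I) := Ideal.Quotient.nontrivial_iff.2 hne
  haveI : IsLocalRing (R ⧸ I) :=
    IsLocalRing.of_surjective' (Ideal.Quotient.mk I) Ideal.Quotient.mk_surjective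
  have hm := Fermat.Agent.H71.SS.regPoint_maximalIdeal_quotient hmax' 0
  have hr0 : Ideal.Quotient.mk I r ≠ 0 := by
    rw [Ne, Ideal.Quotient.eq_zero_iff_mem, hIeq, Ideal.mem_span_singleton]
    exact hr
  obtain ⟨n, v, hv, hxv⟩ :=
    Fermat.Agent.H71.SS.exists_eq_pow_mul_unit_of_maximalIdeal_eq_span hm hr0
  obtain ⟨w, rfl⟩ := Ideal.Quotient.mk_surjective v
  refine ⟨n, w, reg2_isUnit_of_isUnit_mk hne hv, ?_⟩
  rw [← map_pow, ← map_mul, Ideal.Quotient.eq, hIeq, Ideal.mem_span_singleton] at hxv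
  exact hxv

/-- The maximal ideal is not a minimal prime over a principal ideal. -/
theorem reg2_not_minimal (hmax : maximalIdeal R = Ideal.span {x1, x2}) (hprime : Prime x1)
    (hx2 : ¬ x1 ∣ x2) (w : R) : maximalIdeal R ∉ (Ideal.span {w}).minimalPrimes := by
  intro hmin
  have h1 : (maximalIdeal R).height ≤ 1 :=
    Ideal.height_le_one_of_isPrincipal_of_mem_minimalPrimes (Ideal.span {w}) _ hmin
  haveI hP1 : (Ideal.span {x1}).IsPrime := Ideal.isPrime_span_singleton_of_prime hprime
  have hlt1 : (⊥ : Ideal R) < Ideal.span {x1} := by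
    rw [bot_lt_iff_ne_bot, Ne, Ideal.span_singleton_eq_bot]
    exact hprime.ne_zero
  have hlt2 : Ideal.span {x1} < maximalIdeal R := by
    refine lt_of_le_of_ne (IsLocalRing.le_maximalIdeal hP1.ne_top) ?_
    intro h
    have : x2 ∈ Ideal.span {x1} := by rw [h]; exact reg2_x2_mem hmax
    exact hx2 (Ideal.mem_span_singleton.1 this)
  have h2 := Ideal.height_strict_mono_of_isPrime_of_isPrime hlt1
  have h3 := Ideal.height_strict_mono_of_isPrime_of_isPrime hlt2
  have h4 : (Ideal.span {x1}).height < 1 := lt_of_lt_of_le h3 h1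
  have h5 : (Ideal.span {x1}).height = 0 := Order.lt_one_iff.1 h4
  rw [h5] at h2
  exact absurd h2 (by simp)

/-- **Factoriality of a two-dimensional regular local ring**, in the form: every nonzero
non-unit is divisible by a prime element. -/
theorem reg2_exists_prime_dvd (hmax : maximalIdeal R = Ideal.span {x1, x2}) (hprime : Prime x1)
    (hx2 : ¬ x1 ∣ x2) {w : R} (hw0 : w ≠ 0) (hwu : ¬ IsUnit w) : ∃ f : R, Prime f ∧ f ∣ w := by
  classical
  by_cases h1 : x1 ∣ w
  · exact ⟨x1, hprime, h1⟩
  have hwm : Ideal.span {w} ≤ maximalIdeal R := by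
    rw [Ideal.span_le, Set.singleton_subset_iff]
    exact (IsLocalRing.mem_maximalIdeal w).2 hwu
  obtain ⟨P, hPmin, hPm⟩ := Ideal.exists_minimalPrimes_le hwm
  haveI hPp : P.IsPrime := hPmin.1.1
  have hwP : w ∈ P := hPmin.1.2 (Ideal.mem_span_singleton_self w)
  -- `x1 ∉ P`
  have hx1P : x1 ∉ P := by
    intro hx1
    obtain ⟨k, e, he, hke⟩ := reg2_exists_pow_mul_unit_mod hmax h1
    have h2 : x2 ^ k * e ∈ P := by
      have : x2 ^ k * e = w - (w - x2 ^ k * e) := by ring
      rw [this]
      obtain ⟨c, hc⟩ := hke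
      rw [hc]
      exact P.sub_mem hwP (P.mul_mem_right c hx1)
    have h3 : x2 ∈ P := by
      rcases hPp.mem_or_mem h2 with h | h
      · exact hPp.mem_of_pow_mem k h
      · exact absurd (Ideal.eq_top_of_isUnit_mem _ h he) hPp.ne_top
    have h4 : maximalIdeal R ≤ P := by
      rw [hmax, Ideal.span_le]
      rintro x (rfl | rfl)
      · exact hx1
      · exact h3
    have h5 : P = maximalIdeal R := le_antisymm hPm h4
    rw [h5] at hPmin
    exact reg2_not_minimal hmax hprime hx2 w hPmin
  -- the minimal order modulo `x1` on `P`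
  have hex : ∃ k : ℕ, ∃ g ∈ P, ∃ e : R, IsUnit e ∧ x1 ∣ g - x2 ^ k * e := by
    obtain ⟨k, e, he, hke⟩ := reg2_exists_pow_mul_unit_mod hmax h1
    exact ⟨k, w, hwP, e, he, hke⟩
  obtain ⟨f, hfP, ef, hef, hfk⟩ := Nat.find_spec hex
  set c := Nat.find hex with hc
  have hPle : P ≤ Ideal.span {f} ⊔ maximalIdeal R • P := by
    intro g hg
    by_cases hg1 : x1 ∣ g
    · obtain ⟨g', rfl⟩ := hg1
      have hg' : g' ∈ P := (hPp.mem_or_mem hg).resolve_left hx1P
      refine Submodule.mem_sup_right ?_
      exact Submodule.smul_mem_smul (reg2_x1_mem hmax) hg'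
    · obtain ⟨k, e, he, hke⟩ := reg2_exists_pow_mul_unit_mod hmax hg1
      have hck : c ≤ k := Nat.find_min' hex ⟨g, hg, e, he, hke⟩
      obtain ⟨ef', hef'⟩ := hef.exists_right_inv
      -- `g - x2^(k-c) e ef' f` is divisible by `x1`
      have hdiv : x1 ∣ g - x2 ^ (k - c) * e * ef' * f := by
        obtain ⟨a, ha⟩ := hke
        obtain ⟨b, hb⟩ := hfk
        refine ⟨a - x2 ^ (k - c) * e * ef' * b, ?_⟩
        have hpow : x2 ^ k = x2 ^ (k - c) * x2 ^ c := by
          rw [← pow_add]; congr 1; omega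
        have hf : f = x1 * b + x2 ^ c * ef := by rw [← hb]; ring
        have hg' : g = x1 * a + x2 ^ k * e := by rw [← ha]; ring
        rw [hg', hpow]
        conv_lhs => rw [hf]
        have : x2 ^ (k - c) * e * ef' * (x1 * b + x2 ^ c * ef)
            = x1 * (x2 ^ (k - c) * e * ef' * b) + x2 ^ (k - c) * x2 ^ c * e * (ef * ef') := by
          ring
        rw [this, hef']
        ring
      obtain ⟨g', hg'⟩ := hdiv
      have hmem : x1 * g' ∈ P := by
        rw [← hg']
        exact P.sub_mem hg (P.mul_mem_left _ hfP)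
      have hg'P : g' ∈ P := (hPp.mem_or_mem hmem).resolve_left hx1P
      have hgeq : g = x2 ^ (k - c) * e * ef' * f + x1 * g' := by rw [← hg']; ring
      rw [hgeq]
      refine Submodule.add_mem _ (Submodule.mem_sup_left ?_) (Submodule.mem_sup_right ?_)
      · exact Ideal.mul_mem_left _ _ (Ideal.mem_span_singleton_self f)
      · exact Submodule.smul_mem_smul (reg2_x1_mem hmax) hg'P
  have hPfg : (P : Submodule R R).FG := IsNoetherian.noetherian P
  have hjac : maximalIdeal R ≤ Ideal.jacobson ⊥ := by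
    rw [IsLocalRing.jacobson_eq_maximalIdeal ⊥ bot_ne_top]
  have hPf : P ≤ Ideal.span {f} :=
    Submodule.le_of_le_smul_of_le_jacobson_bot hPfg hjac hPle
  have hPeq : P = Ideal.span {f} :=
    le_antisymm hPf (by rw [Ideal.span_le, Set.singleton_subset_iff]; exact hfP)
  have hf0 : f ≠ 0 := by
    rintro rfl
    rw [Ideal.span_singleton_eq_bot.2 rfl] at hPeq
    rw [hPeq] at hwP
    exact hw0 (by simpa using hwP)
  refine ⟨f, (Ideal.span_singleton_prime hf0).1 (hPeq ▸ hPp), ?_⟩
  rw [hPeq] at hwP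
  exact Ideal.mem_span_singleton.1 hwP

end LocalUFD

end Fermat.Agent.H60.SS2
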