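import Mathlib
import Fermat.Agent.H60.SS2.LocalUFD

/-!
# P-SS2, row SS2-A1 (helper60) : the valuation ring of a prime element, abstract REGFACT

Mathlib only.  `R` a noetherian domain with fraction field `E`.

* `primeVal E f hf : ValuationSubring E` : the localisation `R_(f)` at a prime element `f`,
  a discrete valuation ring (`primeVal_isPrincipalIdealRing`, `primeVal_ne_top`).
* `reg2_exists_root_unit` : abstract REGFACT.  If `R` is a two-dimensional regular local ring
  (`𝔪 = (x1, x2)`, `x1` prime, `x1 ∤ x2`) and `u ∈ Eˣ` has `n ∣ ord_f u` at every prime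
  element `f`, then `u p ^ n ∈ Rˣ` for some `p ∈ Eˣ`.
-/

set_option autoImplicit false
set_option linter.unusedSectionVars false
set_option linter.style.haveILetI false

namespace Fermat.Agent.H60.SS2

open IsLocalRing

section PrimeVal

variable {R : Type*} [CommRing R] [IsDomain R] [IsNoetherianRing R]
variable (E : Type*) [Field E] [Algebra R E] [IsFractionRing R E]

theorem reg2_max_power {f : R} (hf : Prime f) {r : R} (hr : r ≠ 0) :
    ∃ (i : ℕ) (r' : R), ¬ f ∣ r' ∧ r = f ^ i * r' :=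
  WfDvdMonoid.max_power_factor hr hf.irreducible

/-- The valuation subring `R_(f)` of `E = Frac R` for a prime element `f` of `R`. -/
def primeVal (f : R) (hf : Prime f) : ValuationSubring E where
  carrier := {z | ∃ a b : R, ¬ f ∣ b ∧ z * algebraMap R E b = algebraMap R E a}
  mul_mem' := by
    rintro z w ⟨a, b, hb, h1⟩ ⟨c, d, hd, h2⟩
    refine ⟨a * c, b * d, fun h => (hf.dvd_or_dvd h).elim hb hd, ?_⟩
    rw [map_mul, map_mul, ← h1, ← h2]; ring
  one_mem' := ⟨1, 1, hf.not_dvd_one, by simp⟩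
  add_mem' := by
    rintro z w ⟨a, b, hb, h1⟩ ⟨c, d, hd, h2⟩
    refine ⟨a * d + c * b, b * d, fun h => (hf.dvd_or_dvd h).elim hb hd, ?_⟩
    simp only [map_add, map_mul]; rw [← h1, ← h2]; ring
  zero_mem' := ⟨0, 1, hf.not_dvd_one, by simp⟩
  neg_mem' := by
    rintro z ⟨a, b, hb, h1⟩
    exact ⟨-a, b, hb, by rw [map_neg, ← h1]; ring⟩
  mem_or_inv_mem' := by
    intro z
    obtain ⟨a, b, hb, rfl⟩ := IsFractionRing.div_surjective R z
    have hb0 : b ≠ 0 := nonZeroDivisors.ne_zero hb
    have hb0' : algebraMap R E b ≠ 0 := by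
      rwa [Ne, map_eq_zero_iff _ (IsFractionRing.injective R E)]
    by_cases ha0 : a = 0
    · left
      subst ha0
      exact ⟨0, 1, hf.not_dvd_one, by simp⟩
    have ha0' : algebraMap R E a ≠ 0 := by
      rwa [Ne, map_eq_zero_iff _ (IsFractionRing.injective R E)]
    obtain ⟨i, a', ha', rfl⟩ := reg2_max_power hf ha0
    obtain ⟨j, b', hb', rfl⟩ := reg2_max_power hf hb0
    have hf0 : algebraMap R E f ≠ 0 := by
      rw [Ne, map_eq_zero_iff _ (IsFractionRing.injective R E)]
      exact hf.ne_zero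
    have hb'0 : algebraMap R E b' ≠ 0 := by
      intro h; apply hb0'; rw [map_mul, h, mul_zero]
    have ha'0 : algebraMap R E a' ≠ 0 := by
      intro h; apply ha0'; rw [map_mul, h, mul_zero]
    rcases le_total j i with hji | hij
    · left
      refine ⟨f ^ (i - j) * a', b', hb', ?_⟩
      obtain ⟨k, rfl⟩ := Nat.exists_eq_add_of_le hji
      simp only [map_mul, map_pow, Nat.add_sub_cancel_left]
      field_simp
      ring
    · right
      refine ⟨f ^ (j - i) * b', a', ha', ?_⟩
      obtain ⟨k, rfl⟩ := Nat.exists_eq_add_of_le hij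
      simp only [map_mul, map_pow, Nat.add_sub_cancel_left]
      field_simp
      ring

variable {E}

theorem mem_primeVal {f : R} {hf : Prime f} {z : E} :
    z ∈ primeVal E f hf ↔ ∃ a b : R, ¬ f ∣ b ∧ z * algebraMap R E b = algebraMap R E a :=
  Iff.rfl

theorem algebraMap_mem_primeVal {f : R} (hf : Prime f) (r : R) :
    algebraMap R E r ∈ primeVal E f hf :=
  ⟨r, 1, hf.not_dvd_one, by simp⟩

theorem reg2_algebraMap_ne_zero {r : R} (hr : r ≠ 0) : algebraMap R E r ≠ 0 := by
  rwa [Ne, map_eq_zero_iff _ (IsFractionRing.injective R E)]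

/-- `z` is a unit of `R_(f)` iff `z = a / b` with `f ∤ a`, `f ∤ b`. -/
theorem primeVal_unit_iff {f : R} (hf : Prime f) {z : E} (_hz : z ≠ 0) :
    (z ∈ primeVal E f hf ∧ z⁻¹ ∈ primeVal E f hf) ↔
      ∃ a b : R, ¬ f ∣ a ∧ ¬ f ∣ b ∧ z * algebraMap R E b = algebraMap R E a := by
  constructor
  · rintro ⟨⟨a, b, hb, h1⟩, ⟨c, d, hd, h2⟩⟩
    refine ⟨a, b, ?_, hb, h1⟩
    intro hfa
    -- `d b = a c`
    have h3 : algebraMap R E (d * b) = algebraMap R E (a * c) := by
      rw [map_mul, map_mul, ← h1, ← h2]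
      field_simp
    have h4 : d * b = a * c := IsFractionRing.injective R E h3
    have h5 : f ∣ d * b := by rw [h4]; exact Dvd.dvd.mul_right hfa c
    exact (hf.dvd_or_dvd h5).elim hd hb
  · rintro ⟨a, b, ha, hb, h1⟩
    refine ⟨⟨a, b, hb, h1⟩, ⟨b, a, ha, ?_⟩⟩
    rw [← h1]
    field_simp

theorem primeVal_not_dvd_ne_zero {f : R} (_hf : Prime f) {a : R} (ha : ¬ f ∣ a) : a ≠ 0 := by
  rintro rfl; exact ha (dvd_zero f)

/-- `r ∈ R` is a non-unit of `R_(f)` iff `f ∣ r`. -/
theorem primeVal_mem_nonunits_iff {f : R} (hf : Prime f) (r : R) :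
    algebraMap R E r ∈ (primeVal E f hf).nonunits ↔ f ∣ r := by
  rw [ValuationSubring.mem_nonunits_iff_or]
  constructor
  · rintro (h | h)
    · rw [map_eq_zero_iff _ (IsFractionRing.injective R E)] at h
      rw [h]; exact dvd_zero f
    · by_contra hfr
      apply h
      have hr0 : algebraMap R E r ≠ 0 := reg2_algebraMap_ne_zero (primeVal_not_dvd_ne_zero hf hfr)
      exact ⟨1, r, hfr, by rw [map_one]; field_simp⟩
  · intro hfr
    by_cases hr : r = 0
    · left; rw [hr, map_zero]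
    right
    rintro ⟨a, b, hb, h1⟩
    have hr0 : algebraMap R E r ≠ 0 := reg2_algebraMap_ne_zero hr
    have h3 : algebraMap R E b = algebraMap R E (a * r) := by
      rw [map_mul, ← h1]; field_simp
    have h4 : b = a * r := IsFractionRing.injective R E h3
    exact hb (h4 ▸ Dvd.dvd.mul_left hfr a)

theorem primeVal_ne_top {f : R} (hf : Prime f) : primeVal E f hf ≠ ⊤ := by
  intro h
  have h1 : algebraMap R E f ∈ (primeVal E f hf).nonunits :=
    (primeVal_mem_nonunits_iff hf f).2 dvd_rfl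
  rw [ValuationSubring.mem_nonunits_iff_or] at h1
  rcases h1 with h1 | h1
  · exact reg2_algebraMap_ne_zero hf.ne_zero h1
  · exact h1 (h ▸ ValuationSubring.mem_top _)

/-- Normal form: every `z ≠ 0` is `f ^ k * a / b` with `f ∤ a`, `f ∤ b`. -/
theorem primeVal_normal_form {f : R} (hf : Prime f) {z : E} (hz : z ≠ 0) :
    ∃ (k : ℤ) (a b : R), ¬ f ∣ a ∧ ¬ f ∣ b ∧
      z * algebraMap R E b = algebraMap R E f ^ k * algebraMap R E a := by
  obtain ⟨a, b, hb, rfl⟩ := IsFractionRing.div_surjective R z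
  have hb0 : b ≠ 0 := nonZeroDivisors.ne_zero hb
  have ha0 : a ≠ 0 := by
    rintro rfl; apply hz; simp
  obtain ⟨i, a', ha', rfl⟩ := reg2_max_power hf ha0
  obtain ⟨j, b', hb', rfl⟩ := reg2_max_power hf hb0
  have hf0 : algebraMap R E f ≠ 0 := reg2_algebraMap_ne_zero hf.ne_zero
  have hb'0 : algebraMap R E b' ≠ 0 := reg2_algebraMap_ne_zero (primeVal_not_dvd_ne_zero hf hb')
  refine ⟨(i : ℤ) - j, a', b', ha', hb', ?_⟩
  rw [zpow_sub₀ hf0, zpow_natCast, zpow_natCast]
  simp only [map_mul, map_pow]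
  field_simp

/-- A power `f ^ k` times a unit of `R_(f)` is a unit of `R_(f)` only for `k = 0`. -/
theorem primeVal_zpow_unit {f : R} (hf : Prime f) {k : ℤ} {a b : R} (ha : ¬ f ∣ a)
    (hb : ¬ f ∣ b) {z : E} (hz : z * algebraMap R E b = algebraMap R E f ^ k * algebraMap R E a)
    (h1 : z ∈ primeVal E f hf) (h2 : z⁻¹ ∈ primeVal E f hf) : k = 0 := by
  have hf0 : algebraMap R E f ≠ 0 := reg2_algebraMap_ne_zero hf.ne_zero
  have ha0 : algebraMap R E a ≠ 0 := reg2_algebraMap_ne_zero (primeVal_not_dvd_ne_zero hf ha)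
  have hb0 : algebraMap R E b ≠ 0 := reg2_algebraMap_ne_zero (primeVal_not_dvd_ne_zero hf hb)
  have hz0 : z ≠ 0 := by
    rintro rfl
    rw [zero_mul] at hz
    exact mul_ne_zero (zpow_ne_zero k hf0) ha0 hz.symm
  obtain ⟨c, d, hc, hd, h3⟩ := (primeVal_unit_iff hf hz0).1 ⟨h1, h2⟩
  have hc0 : algebraMap R E c ≠ 0 := reg2_algebraMap_ne_zero (primeVal_not_dvd_ne_zero hf hc)
  have hd0 : algebraMap R E d ≠ 0 := reg2_algebraMap_ne_zero (primeVal_not_dvd_ne_zero hf hd)
  -- `c b = f ^ k a d`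
  have h4 : algebraMap R E (c * b) = algebraMap R E f ^ k * algebraMap R E (a * d) := by
    rw [map_mul, map_mul, ← h3]
    have : z * algebraMap R E d * algebraMap R E b
        = (z * algebraMap R E b) * algebraMap R E d := by ring
    rw [this, hz]; ring
  rcases lt_trichotomy k 0 with hk | hk | hk
  · exfalso
    obtain ⟨m, hm⟩ := Int.exists_eq_neg_ofNat hk.le
    have hm1 : 1 ≤ m := by omega
    rw [hm, zpow_neg, zpow_natCast] at h4
    have h5 : algebraMap R E (f ^ m * (c * b)) = algebraMap R E (a * d) := by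
      rw [map_mul, map_pow, h4]
      field_simp
    have h6 : f ^ m * (c * b) = a * d := IsFractionRing.injective R E h5
    have h7 : f ∣ a * d := by
      rw [← h6]
      exact Dvd.dvd.mul_right (dvd_pow_self f (by omega)) _
    exact (hf.dvd_or_dvd h7).elim ha hd
  · exact hk
  · exfalso
    obtain ⟨m, hm⟩ := Int.eq_ofNat_of_zero_le hk.le
    have hm1 : 1 ≤ m := by omega
    rw [hm, zpow_natCast] at h4
    have h5 : algebraMap R E (c * b) = algebraMap R E (f ^ m * (a * d)) := by
      rw [h4, map_mul (algebraMap R E) (f ^ m), map_pow]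
    have h6 : c * b = f ^ m * (a * d) := IsFractionRing.injective R E h5
    have h7 : f ∣ c * b := by
      rw [h6]
      exact Dvd.dvd.mul_right (dvd_pow_self f (by omega)) _
    exact (hf.dvd_or_dvd h7).elim hc hb

/-- `n ∣ ord_f z` in terms of a normal form of `z`. -/
theorem primeVal_ordDvd {f : R} (hf : Prime f) {k : ℤ} {a b : R} (ha : ¬ f ∣ a)
    (hb : ¬ f ∣ b) {z : E} (hz : z * algebraMap R E b = algebraMap R E f ^ k * algebraMap R E a)
    (n : ℕ)
    (h : ∃ t : E, t ≠ 0 ∧ z * t ^ n ∈ primeVal E f hf ∧ (z * t ^ n)⁻¹ ∈ primeVal E f hf) :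
    (n : ℤ) ∣ k := by
  obtain ⟨t, ht0, h1, h2⟩ := h
  obtain ⟨m, c, d, hc, hd, h3⟩ := primeVal_normal_form hf ht0
  have hf0 : algebraMap R E f ≠ 0 := reg2_algebraMap_ne_zero hf.ne_zero
  have hcn : ¬ f ∣ a * c ^ n := fun h =>
    (hf.dvd_or_dvd h).elim ha (fun h' => hc (hf.dvd_of_dvd_pow h'))
  have hdn : ¬ f ∣ b * d ^ n := fun h =>
    (hf.dvd_or_dvd h).elim hb (fun h' => hd (hf.dvd_of_dvd_pow h'))
  have h4 : (z * t ^ n) * algebraMap R E (b * d ^ n)
      = algebraMap R E f ^ (k + m * n) * algebraMap R E (a * c ^ n) := by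
    have e1 : (z * t ^ n) * algebraMap R E (b * d ^ n)
        = (z * algebraMap R E b) * (t * algebraMap R E d) ^ n := by
      rw [map_mul, map_pow]; ring
    rw [e1, hz, h3, zpow_add₀ hf0, zpow_mul, zpow_natCast, map_mul, map_pow]
    ring
  have h5 := primeVal_zpow_unit hf hcn hdn h4 h1 h2
  exact ⟨-m, by linarith⟩

/-- Normal form of the nonzero elements of `R_(f)`. -/
theorem primeVal_normal_form_mem {f : R} (hf : Prime f) {z : E} (hz : z ≠ 0)
    (hzV : z ∈ primeVal E f hf) :
    ∃ (k : ℕ) (a b : R), ¬ f ∣ a ∧ ¬ f ∣ b ∧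
      z * algebraMap R E b = algebraMap R E f ^ k * algebraMap R E a := by
  obtain ⟨c, d, hd, h1⟩ := hzV
  have hd0 : algebraMap R E d ≠ 0 := reg2_algebraMap_ne_zero (primeVal_not_dvd_ne_zero hf hd)
  have hc0 : c ≠ 0 := by
    rintro rfl
    rw [map_zero] at h1
    exact (mul_ne_zero hz hd0) h1
  obtain ⟨k, a, ha, rfl⟩ := reg2_max_power hf hc0
  exact ⟨k, a, d, ha, hd, by rw [h1, map_mul, map_pow]⟩

/-- `R_(f)` is a principal ideal ring (a discrete valuation ring). -/
theorem primeVal_isPrincipalIdealRing {f : R} (hf : Prime f) :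
    IsPrincipalIdealRing (primeVal E f hf) := by
  classical
  refine ⟨fun I => ?_⟩
  by_cases hI : I = ⊥
  · rw [hI]; exact bot_isPrincipal
  have hex : ∃ k : ℕ, ∃ x ∈ I, ∃ a b : R, ¬ f ∣ a ∧ ¬ f ∣ b ∧
      (x : E) * algebraMap R E b = algebraMap R E f ^ k * algebraMap R E a := by
    obtain ⟨x, hxI, hx0⟩ := Submodule.exists_mem_ne_zero_of_ne_bot hI
    have hx0' : (x : E) ≠ 0 := fun h => hx0 (Subtype.ext h)
    obtain ⟨k, a, b, ha, hb, h⟩ := primeVal_normal_form_mem hf hx0' x.2
    exact ⟨k, x, hxI, a, b, ha, hb, h⟩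
  obtain ⟨x0, hx0I, a0, b0, ha0, hb0, h0⟩ := Nat.find_spec hex
  set k0 := Nat.find hex with hk0
  have hf0 : algebraMap R E f ≠ 0 := reg2_algebraMap_ne_zero hf.ne_zero
  have ha0' : algebraMap R E a0 ≠ 0 :=
    reg2_algebraMap_ne_zero (primeVal_not_dvd_ne_zero hf ha0)
  have hb0' : algebraMap R E b0 ≠ 0 :=
    reg2_algebraMap_ne_zero (primeVal_not_dvd_ne_zero hf hb0)
  have hx00 : (x0 : E) ≠ 0 := by
    intro h
    rw [h, zero_mul] at h0
    exact mul_ne_zero (pow_ne_zero _ hf0) ha0' h0.symm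
  refine ⟨⟨x0, le_antisymm ?_ ?_⟩⟩
  · intro y hy
    rw [Submodule.mem_span_singleton]
    by_cases hy0 : y = 0
    · exact ⟨0, by rw [hy0, zero_smul]⟩
    have hy0' : (y : E) ≠ 0 := fun h => hy0 (Subtype.ext h)
    obtain ⟨k, a, b, ha, hb, h⟩ := primeVal_normal_form_mem hf hy0' y.2
    have hk : k0 ≤ k := Nat.find_min' hex ⟨y, hy, a, b, ha, hb, h⟩
    have hb' : algebraMap R E b ≠ 0 :=
      reg2_algebraMap_ne_zero (primeVal_not_dvd_ne_zero hf hb)
    have hq : (y : E) / x0 ∈ primeVal E f hf := by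
      refine ⟨f ^ (k - k0) * (a * b0), b * a0,
        fun h => (hf.dvd_or_dvd h).elim hb ha0, ?_⟩
      obtain ⟨j, rfl⟩ := Nat.exists_eq_add_of_le hk
      have e1 : (y : E) / x0 * algebraMap R E (b * a0)
          = ((y : E) * algebraMap R E b) * algebraMap R E a0 / x0 := by
        rw [map_mul]; ring
      have e2 : (x0 : E) = algebraMap R E f ^ k0 * algebraMap R E a0 / algebraMap R E b0 := by
        rw [← h0]; field_simp
      rw [e1, h, e2]
      simp only [map_mul, map_pow, Nat.add_sub_cancel_left]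
      field_simp
      ring
    refine ⟨⟨(y : E) / x0, hq⟩, Subtype.ext ?_⟩
    show (y : E) / x0 * x0 = y
    field_simp
  · rw [Submodule.span_le, Set.singleton_subset_iff]
    exact hx0I

end PrimeVal

section RootUnit

variable {R : Type*} [CommRing R] [IsDomain R] [IsLocalRing R] [IsNoetherianRing R]
variable {E : Type*} [Field E] [Algebra R E] [IsFractionRing R E]
variable {x1 x2 : R}

/-- **Abstract REGFACT.**  In a two-dimensional regular local ring `R` (`𝔪 = (x1, x2)`,
`x1` prime, `x1 ∤ x2`) with fraction field `E`: if `u ≠ 0` has `n ∣ ord_f u` at every prime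
element `f` of `R`, then `u p ^ n` is a unit of `R` for some `p ≠ 0`. -/
theorem reg2_exists_root_unit (hmax : maximalIdeal R = Ideal.span {x1, x2}) (hprime : Prime x1)
    (hx2 : ¬ x1 ∣ x2) (n : ℕ) (u : E) (hu : u ≠ 0)
    (h : ∀ (f : R) (hf : Prime f), ∃ t : E, t ≠ 0 ∧ u * t ^ n ∈ primeVal E f hf ∧
      (u * t ^ n)⁻¹ ∈ primeVal E f hf) :
    ∃ p : E, p ≠ 0 ∧ ∃ e : R, IsUnit e ∧ u * p ^ n = algebraMap R E e := by
  -- induction on `c = a * b`, `u = a / b`
  have key : ∀ c : R, c ≠ 0 → ∀ (u : E) (a b : R), a * b = c →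
      u * algebraMap R E b = algebraMap R E a →
      (∀ (f : R) (hf : Prime f), ∃ t : E, t ≠ 0 ∧ u * t ^ n ∈ primeVal E f hf ∧
        (u * t ^ n)⁻¹ ∈ primeVal E f hf) →
      ∃ p : E, p ≠ 0 ∧ ∃ e : R, IsUnit e ∧ u * p ^ n = algebraMap R E e := by
    intro c
    induction c using (wellFounded_dvdNotUnit (α := R)).induction with
    | _ c ih =>
    intro hc0 u a b hab hu h
    have ha0 : a ≠ 0 := by rintro rfl; exact hc0 (by rw [← hab, zero_mul])
    have hb0 : b ≠ 0 := by rintro rfl; exact hc0 (by rw [← hab, mul_zero])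
    have hb0' : algebraMap R E b ≠ 0 := reg2_algebraMap_ne_zero hb0
    by_cases hcu : IsUnit c
    · rw [← hab] at hcu
      have hau : IsUnit a := isUnit_of_mul_isUnit_left hcu
      have hbu : IsUnit b := isUnit_of_mul_isUnit_right hcu
      obtain ⟨b', hb'⟩ := hbu.exists_right_inv
      refine ⟨1, one_ne_zero, a * b', hau.mul (IsUnit.of_mul_eq_one b (by rw [mul_comm]; exact hb')), ?_⟩
      rw [one_pow, mul_one, map_mul, ← hu]
      have : algebraMap R E b * algebraMap R E b' = 1 := by rw [← map_mul, hb', map_one]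
      rw [mul_assoc, this, mul_one]
    · obtain ⟨f, hf, hfc⟩ := reg2_exists_prime_dvd hmax hprime hx2 hc0 hcu
      obtain ⟨i, a', ha', rfl⟩ := reg2_max_power hf ha0
      obtain ⟨j, b', hb', rfl⟩ := reg2_max_power hf hb0
      have hf0 : algebraMap R E f ≠ 0 := reg2_algebraMap_ne_zero hf.ne_zero
      have hb'0 : algebraMap R E b' ≠ 0 :=
        reg2_algebraMap_ne_zero (primeVal_not_dvd_ne_zero hf hb')
      have ha'0 : algebraMap R E a' ≠ 0 :=
        reg2_algebraMap_ne_zero (primeVal_not_dvd_ne_zero hf ha')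
      -- normal form of `u`
      have hnf : u * algebraMap R E b'
          = algebraMap R E f ^ ((i : ℤ) - j) * algebraMap R E a' := by
        rw [zpow_sub₀ hf0, zpow_natCast, zpow_natCast]
        simp only [map_mul, map_pow] at hu
        field_simp
        rw [← hu]; ring
      obtain ⟨m, hm⟩ := primeVal_ordDvd hf ha' hb' hnf n (h f hf)
      -- the new function
      set F : E := algebraMap R E f with hF
      have hu' : (u * (F ^ (-m)) ^ n) * algebraMap R E b' = algebraMap R E a' := by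
        have e1 : (u * (F ^ (-m)) ^ n) * algebraMap R E b'
            = (u * algebraMap R E b') * (F ^ (-m)) ^ n := by ring
        rw [e1, hnf, hm, ← zpow_natCast (F ^ (-m)) n, ← zpow_mul,
          mul_comm (F ^ ((n : ℤ) * m)), mul_assoc, ← zpow_add₀ hf0]
        have : (n : ℤ) * m + -m * (n : ℤ) = 0 := by ring
        rw [this, zpow_zero, mul_one]
      have hdnu : DvdNotUnit (a' * b') c := by
        refine ⟨mul_ne_zero (primeVal_not_dvd_ne_zero hf ha') (primeVal_not_dvd_ne_zero hf hb'),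
          f ^ (i + j), ?_, ?_⟩
        · intro hunit
          have hij : i + j ≠ 0 := by
            intro h0
            have hi : i = 0 := by omega
            have hj : j = 0 := by omega
            subst hi; subst hj
            rw [pow_zero, one_mul, one_mul] at hab
            rw [← hab] at hfc
            exact (hf.dvd_or_dvd hfc).elim ha' hb'
          exact hf.not_isUnit (isUnit_of_dvd_unit (dvd_pow_self f hij) hunit)
        · rw [← hab, pow_add]; ring
      have hc'0 : a' * b' ≠ 0 := hdnu.1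
      have h' : ∀ (g : R) (hg : Prime g), ∃ t : E, t ≠ 0 ∧
          (u * (F ^ (-m)) ^ n) * t ^ n ∈ primeVal E g hg ∧
          ((u * (F ^ (-m)) ^ n) * t ^ n)⁻¹ ∈ primeVal E g hg := by
        intro g hg
        obtain ⟨t, ht0, h1, h2⟩ := h g hg
        refine ⟨t * F ^ m, mul_ne_zero ht0 (zpow_ne_zero m hf0), ?_, ?_⟩
        · have e : (u * (F ^ (-m)) ^ n) * (t * F ^ m) ^ n = u * t ^ n := by
            rw [mul_pow, zpow_neg, inv_pow]
            field_simp
          rw [e]; exact h1
        · have e : (u * (F ^ (-m)) ^ n) * (t * F ^ m) ^ n = u * t ^ n := by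
            rw [mul_pow, zpow_neg, inv_pow]
            field_simp
          rw [e]; exact h2
      obtain ⟨p', hp'0, e, he, hpe⟩ := ih (a' * b') hdnu hc'0 _ a' b' rfl hu' h'
      refine ⟨F ^ (-m) * p', mul_ne_zero (zpow_ne_zero _ hf0) hp'0, e, he, ?_⟩
      rw [← hpe, mul_pow]; ring
  obtain ⟨a, b, hb, rfl⟩ := IsFractionRing.div_surjective R u
  have hb0 : b ≠ 0 := nonZeroDivisors.ne_zero hb
  have ha0 : a ≠ 0 := by rintro rfl; apply hu; simp
  have hb0' : algebraMap R E b ≠ 0 := reg2_algebraMap_ne_zero hb0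
  exact key (a * b) (mul_ne_zero ha0 hb0) _ a b rfl (by field_simp) h

end RootUnit

end Fermat.Agent.H60.SS2
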