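import Mathlib
import Fermat.Agent.H60.SS2.LocalUFD

/-!
# P-SS2, row SS2-A1 (helper60) : the abstract core of REGCRIT

Mathlib only.  `R` a noetherian local domain, `x1` a prime element, `x2 ∈ 𝔪`, `x1 ∤ x2`,
`D ⊆ R` a subring such that (i) every nonzero `d ∈ D` is congruent modulo `x1` to an element of
`x2 D` or is a unit of `R`, (ii) every `r ∈ 𝔪` is, modulo `x1`, a quotient `d / d'` of elements
of `D` (`x1 ∤ d'`).  Then `𝔪 = (x1, x2)` (`branch_maximalIdeal_eq`).

Proof: `R / x1` lies between the "discrete valuation ring" `D / x1` and its fraction field.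
-/

set_option autoImplicit false
set_option linter.unusedSectionVars false
set_option linter.style.haveILetI false

namespace Fermat.Agent.H60.SS2

open IsLocalRing

section Branch

variable {R : Type*} [CommRing R] [IsDomain R] [IsLocalRing R] [IsNoetherianRing R]
variable {x1 x2 : R}

/-- Krull intersection modulo `x1`: every `d ∈ D` with `x1 ∤ d` is congruent modulo `x1` to
`x2 ^ k e` with `e ∈ D` a unit of `R`. -/
theorem branch_exists_pow_mul_unit (D : Subring R) (hx1 : ¬ IsUnit x1)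
    (hx2 : x2 ∈ maximalIdeal R)
    (hi : ∀ d ∈ D, d ≠ 0 → (∃ d' ∈ D, x1 ∣ d - x2 * d') ∨ IsUnit d)
    {d : R} (hd : d ∈ D) (hdx : ¬ x1 ∣ d) :
    ∃ (k : ℕ) (e : R), e ∈ D ∧ IsUnit e ∧ x1 ∣ d - x2 ^ k * e := by
  by_contra hcon
  push Not at hcon
  have hall : ∀ k : ℕ, ∃ dk ∈ D, x1 ∣ d - x2 ^ k * dk := by
    intro k
    induction k with
    | zero => exact ⟨d, hd, by simp⟩
    | succ k ih =>
      obtain ⟨dk, hdk, hk⟩ := ih
      have hdk0 : dk ≠ 0 := by
        rintro rfl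
        apply hdx
        simpa using hk
      rcases hi dk hdk hdk0 with ⟨d', hd', h'⟩ | hu
      · refine ⟨d', hd', ?_⟩
        have : d - x2 ^ (k + 1) * d' = (d - x2 ^ k * dk) + x2 ^ k * (dk - x2 * d') := by ring
        rw [this]
        exact dvd_add hk (Dvd.dvd.mul_left h' _)
      · exact absurd hk (hcon k dk hdk hu)
  set I : Ideal R := Ideal.span {x1} with hI
  have hne : I ≠ ⊤ := by
    rw [hI, Ne, Ideal.span_singleton_eq_top]; exact hx1
  haveI : Nontrivial (R ⧸ I) := Ideal.Quotient.nontrivial_iff.2 hne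
  haveI : IsLocalRing (R ⧸ I) :=
    IsLocalRing.of_surjective' (Ideal.Quotient.mk I) Ideal.Quotient.mk_surjective
  have hK : ⨅ i : ℕ, maximalIdeal (R ⧸ I) ^ i = ⊥ :=
    Ideal.iInf_pow_eq_bot_of_isLocalRing (maximalIdeal (R ⧸ I)) Ideal.IsPrime.ne_top'
  have hx2' : Ideal.Quotient.mk I x2 ∈ maximalIdeal (R ⧸ I) := by
    rw [IsLocalRing.mem_maximalIdeal]
    intro hu
    exact (IsLocalRing.mem_maximalIdeal _).1 hx2 (reg2_isUnit_of_isUnit_mk hne hu)
  have hmem : Ideal.Quotient.mk I d ∈ ⨅ i : ℕ, maximalIdeal (R ⧸ I) ^ i := by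
    rw [Ideal.mem_iInf]
    intro k
    obtain ⟨dk, -, hk⟩ := hall k
    have h1 : Ideal.Quotient.mk I d = Ideal.Quotient.mk I x2 ^ k * Ideal.Quotient.mk I dk := by
      rw [← map_pow, ← map_mul, Ideal.Quotient.eq, hI, Ideal.mem_span_singleton]
      exact hk
    rw [h1]
    exact Ideal.mul_mem_right _ _ (Ideal.pow_mem_pow hx2' k)
  rw [hK, Ideal.mem_bot, Ideal.Quotient.eq_zero_iff_mem, hI, Ideal.mem_span_singleton] at hmem
  exact hdx hmem

/-- **Abstract REGCRIT (r).** -/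
theorem branch_maximalIdeal_eq (D : Subring R) (hprime : Prime x1)
    (hx1m : x1 ∈ maximalIdeal R) (hx2m : x2 ∈ maximalIdeal R) (hx2 : ¬ x1 ∣ x2)
    (hi : ∀ d ∈ D, d ≠ 0 → (∃ d' ∈ D, x1 ∣ d - x2 * d') ∨ IsUnit d)
    (hii : ∀ r : R, r ∈ maximalIdeal R → ¬ x1 ∣ r →
      ∃ d ∈ D, ∃ d' ∈ D, ¬ x1 ∣ d' ∧ x1 ∣ r * d' - d) :
    maximalIdeal R = Ideal.span {x1, x2} := by
  have hx1u : ¬ IsUnit x1 := hprime.not_isUnit
  apply le_antisymm
  · intro r hr
    rw [Ideal.mem_span_pair]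
    by_cases hrx : x1 ∣ r
    · obtain ⟨c, rfl⟩ := hrx
      exact ⟨c, 0, by ring⟩
    obtain ⟨d, hd, d', hd', hd'x, hrd⟩ := hii r hr hrx
    have hdx : ¬ x1 ∣ d := by
      intro h
      have : x1 ∣ r * d' := by
        have e : r * d' = (r * d' - d) + d := by ring
        rw [e]; exact dvd_add hrd h
      exact (hprime.dvd_or_dvd this).elim hrx hd'x
    obtain ⟨k, e, -, he, hke⟩ := branch_exists_pow_mul_unit D hx1u hx2m hi hd hdx
    obtain ⟨k', e', -, he', hke'⟩ := branch_exists_pow_mul_unit D hx1u hx2m hi hd' hd'x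
    -- `r x2^k' e' ≡ x2^k e` modulo `x1`
    have hcong : x1 ∣ r * (x2 ^ k' * e') - x2 ^ k * e := by
      have e1 : r * (x2 ^ k' * e') - x2 ^ k * e
          = (r * d' - d) + (d - x2 ^ k * e) - r * (d' - x2 ^ k' * e') := by ring
      rw [e1]
      exact dvd_sub (dvd_add hrd hke) (Dvd.dvd.mul_left hke' r)
    have hx2pow : ∀ j : ℕ, ¬ x1 ∣ x2 ^ j := fun j h => hx2 (hprime.dvd_of_dvd_pow h)
    rcases Nat.lt_or_ge k' k with hlt | hge
    · -- `k ≥ k' + 1`
      obtain ⟨j, rfl⟩ := Nat.exists_eq_add_of_lt hlt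
      have e2 : r * (x2 ^ k' * e') - x2 ^ (k' + j + 1) * e
          = x2 ^ k' * (r * e' - x2 ^ (j + 1) * e) := by ring
      rw [e2] at hcong
      have h3 : x1 ∣ r * e' - x2 ^ (j + 1) * e :=
        (hprime.dvd_or_dvd hcong).resolve_left (hx2pow k')
      obtain ⟨c, hc⟩ := h3
      obtain ⟨e'', he''⟩ := he'.exists_right_inv
      refine ⟨c * e'', x2 ^ j * e * e'', ?_⟩
      have h4 : r = (r * e') * e'' := by rw [mul_assoc, he'', mul_one]
      have h5 : r * e' = x1 * c + x2 ^ (j + 1) * e := by rw [← hc]; ring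
      rw [h4, h5]; ring
    · -- `k ≤ k'`: impossible
      exfalso
      obtain ⟨j, rfl⟩ := Nat.exists_eq_add_of_le hge
      have e2 : r * (x2 ^ (k + j) * e') - x2 ^ k * e
          = x2 ^ k * (r * x2 ^ j * e' - e) := by ring
      rw [e2] at hcong
      have h3 : x1 ∣ r * x2 ^ j * e' - e :=
        (hprime.dvd_or_dvd hcong).resolve_left (hx2pow k)
      obtain ⟨c, hc⟩ := h3
      have h4 : e ∈ maximalIdeal R := by
        have : e = r * x2 ^ j * e' - x1 * c := by rw [← hc]; ring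
        rw [this]
        exact (maximalIdeal R).sub_mem
          ((maximalIdeal R).mul_mem_right _ ((maximalIdeal R).mul_mem_right _ hr))
          ((maximalIdeal R).mul_mem_right _ hx1m)
      exact (IsLocalRing.mem_maximalIdeal _).1 h4 he
  · rw [Ideal.span_le]
    rintro x (rfl | rfl)
    · exact hx1m
    · exact hx2m

end Branch

end Fermat.Agent.H60.SS2
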