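import Fermat.Agent.H60.SS2.RegInterfaces
import Fermat.Agent.H60.SS2.PrimeVal
import Fermat.Agent.H60.SS2.BranchDVR
import Fermat.Agent.H60.SS2.ValLemmas
import Fermat.Agent.H41.SS.TubeChart

/-!
# P-SS2, row SS2-A1 (helper60) : the local ring `B_𝔪` as a subalgebra of `E₀`

`locAlg 𝔪 : Subalgebra B E₀` (Mathlib's `Localization.subalgebra.ofField`), with
`IsLocalization.AtPrime`, `IsFractionRing`, `IsLocalRing`, `IsNoetherianRing`;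
`mem_locAlg_iff : z ∈ locAlg 𝔪 ↔ InLoc A E₀ y 𝔪 z`; `locAlg_isUnit_iff`;
`locAlg_le_val` (`B_𝔪 ⊆ V`), `locAlg_dvd_iff` (`x1 ∣ r ↔ r ∈ 𝔪_V`), `locAlg_prime`;
`locAlg_hmax_of_reg`, `locAlg_reg_of_hmax` (`𝔪 B_𝔪 = (x1, x2)` versus clause (r)).
-/

set_option autoImplicit false
set_option linter.unusedSectionVars false
set_option linter.style.haveILetI false

noncomputable section

namespace Fermat.Agent.H60.SS2

open Fermat.Agent.H22.KL Fermat.Agent.H45 IsLocalRing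

section LocRing

variable {A : Type} [CommRing A] {E₀ : Type} [Field E₀] [Algebra A E₀]
variable {y : E₀} (𝔪 : Ideal (chartClosure A E₀ y)) [𝔪.IsPrime]
variable [IsFractionRing ↥(chartClosure A E₀ y) E₀]

/-- `B_𝔪` as a subalgebra of `E₀` over `B = B(y)`. -/
def locAlg : Subalgebra ↥(chartClosure A E₀ y) E₀ :=
  Localization.subalgebra.ofField E₀ 𝔪.primeCompl (Ideal.primeCompl_le_nonZeroDivisors 𝔪)

instance locAlg_isLocalization : IsLocalization.AtPrime ↥(locAlg 𝔪) 𝔪 :=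
  Localization.subalgebra.isLocalization_ofField E₀ 𝔪.primeCompl
    (Ideal.primeCompl_le_nonZeroDivisors 𝔪)

instance locAlg_isFractionRing : IsFractionRing ↥(locAlg 𝔪) E₀ :=
  Localization.subalgebra.isFractionRing_ofField E₀ 𝔪.primeCompl
    (Ideal.primeCompl_le_nonZeroDivisors 𝔪)

instance locAlg_isLocalRing : IsLocalRing ↥(locAlg 𝔪) :=
  IsLocalization.AtPrime.isLocalRing ↥(locAlg 𝔪) 𝔪

theorem locAlg_isNoetherianRing [IsNoetherianRing ↥(chartClosure A E₀ y)] :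
    IsNoetherianRing ↥(locAlg 𝔪) :=
  IsLocalization.isNoetherianRing 𝔪.primeCompl ↥(locAlg 𝔪) inferInstance

theorem mem_locAlg_iff {z : E₀} : z ∈ locAlg 𝔪 ↔ InLoc A E₀ y 𝔪 z := by
  constructor
  · rintro ⟨a, s, hs, rfl⟩
    have hs0 : (s : E₀) ≠ 0 := by
      intro h
      apply hs
      have : s = 0 := Subtype.ext h
      rw [this]; exact 𝔪.zero_mem
    refine ⟨s, hs, ?_⟩
    have : (s : E₀) * (algebraMap ↥(chartClosure A E₀ y) E₀ a *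
        (algebraMap ↥(chartClosure A E₀ y) E₀ s)⁻¹) = (a : E₀) := by
      show (s : E₀) * ((a : E₀) * (s : E₀)⁻¹) = (a : E₀)
      field_simp
    rw [this]; exact a.2
  · rintro ⟨b, hb, hbz⟩
    have hb0 : (b : E₀) ≠ 0 := by
      intro h
      apply hb
      have : b = 0 := Subtype.ext h
      rw [this]; exact 𝔪.zero_mem
    refine ⟨⟨_, hbz⟩, b, hb, ?_⟩
    show z = (b : E₀) * z * (b : E₀)⁻¹
    field_simp

/-- an element of `B_𝔪` from an element of `E₀` in `B_𝔪`. -/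
def locOf (z : E₀) (hz : InLoc A E₀ y 𝔪 z) : ↥(locAlg 𝔪) := ⟨z, (mem_locAlg_iff 𝔪).2 hz⟩

@[simp] theorem coe_locOf (z : E₀) (hz : InLoc A E₀ y 𝔪 z) : ((locOf 𝔪 z hz : ↥(locAlg 𝔪)) : E₀) = z :=
  rfl

theorem locAlg_coe_algebraMap (s : ↥(chartClosure A E₀ y)) :
    ((algebraMap ↥(chartClosure A E₀ y) ↥(locAlg 𝔪) s : ↥(locAlg 𝔪)) : E₀) = (s : E₀) := rfl

theorem locAlg_algebraMap_coe (r : ↥(locAlg 𝔪)) : algebraMap ↥(locAlg 𝔪) E₀ r = (r : E₀) := rfl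

theorem coe_ne_zero_of_not_mem {b : ↥(chartClosure A E₀ y)} (hb : b ∉ 𝔪) : (b : E₀) ≠ 0 := by
  intro h
  apply hb
  have : b = 0 := Subtype.ext h
  rw [this]; exact 𝔪.zero_mem

theorem algebraMap_mem_maximalIdeal_iff (s : ↥(chartClosure A E₀ y)) :
    algebraMap ↥(chartClosure A E₀ y) ↥(locAlg 𝔪) s ∈ maximalIdeal ↥(locAlg 𝔪) ↔ s ∈ 𝔪 :=
  IsLocalization.AtPrime.to_map_mem_maximal_iff ↥(locAlg 𝔪) 𝔪 s

/-- a unit of `B_𝔪`, in terms of `InLoc`. -/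
theorem locAlg_isUnit_iff (r : ↥(locAlg 𝔪)) :
    IsUnit r ↔ (r : E₀) ≠ 0 ∧ InLoc A E₀ y 𝔪 (r : E₀)⁻¹ := by
  constructor
  · intro hu
    obtain ⟨c, hc⟩ := hu.exists_right_inv
    have h1 : (r : E₀) * (c : E₀) = 1 := congrArg Subtype.val hc
    have hr0 : (r : E₀) ≠ 0 := left_ne_zero_of_mul_eq_one h1
    refine ⟨hr0, ?_⟩
    have : (r : E₀)⁻¹ = (c : E₀) := inv_eq_of_mul_eq_one_right h1
    rw [this]
    exact (mem_locAlg_iff 𝔪).1 c.2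
  · rintro ⟨hr0, hinv⟩
    refine IsUnit.of_mul_eq_one (locOf 𝔪 _ hinv) (Subtype.ext ?_)
    show (r : E₀) * (r : E₀)⁻¹ = 1
    exact mul_inv_cancel₀ hr0

section Branch

variable (V : ValuationSubring E₀) (hBV : ∀ s : ↥(chartClosure A E₀ y), (s : E₀) ∈ V)
  (hthr : Through A E₀ y 𝔪 V)

include hBV hthr in
/-- `B_𝔪 ⊆ V` for a valuation subring `V ⊇ B` through `𝔪`. -/
theorem locAlg_le_val (r : ↥(locAlg 𝔪)) : (r : E₀) ∈ V := by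
  obtain ⟨b, hb, hbr⟩ := (mem_locAlg_iff 𝔪).1 r.2
  have hb0 : (b : E₀) ≠ 0 := coe_ne_zero_of_not_mem 𝔪 hb
  have hbn : (b : E₀) ∉ V.nonunits := fun h => hb (hthr b h)
  have hbi : (b : E₀)⁻¹ ∈ V := vs_mem_of_not_nonunits_inv hbn
  have : (r : E₀) = (b : E₀)⁻¹ * ((b : E₀) * r) := by field_simp
  rw [this]
  exact V.mul_mem _ _ hbi (hBV ⟨_, hbr⟩)

variable {x1 : E₀} (hx1B : x1 ∈ chartClosure A E₀ y) (hx1V : x1 ∈ V.nonunits)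
  (hp : ∀ s : ↥(chartClosure A E₀ y), (s : E₀) ∈ V.nonunits →
    ∃ b : ↥(chartClosure A E₀ y), b ∉ 𝔪 ∧ ∃ c : ↥(chartClosure A E₀ y), (b : E₀) * s = x1 * c)

include hBV hthr hx1V hp in
/-- (p) extended to `B_𝔪`: `x1 ∣ r` in `B_𝔪` iff `r` is a non-unit of `V`. -/
theorem locAlg_dvd_iff (r : ↥(locAlg 𝔪)) :
    locOf 𝔪 x1 (inLoc_of_mem (Ideal.IsPrime.ne_top ‹_›) hx1B) ∣ r ↔ (r : E₀) ∈ V.nonunits := by
  constructor
  · rintro ⟨c, rfl⟩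
    show x1 * (c : E₀) ∈ V.nonunits
    exact vs_mem_nonunits_of_mul hx1V (locAlg_le_val 𝔪 V hBV hthr c)
  · intro hr
    obtain ⟨b, hb, hbr⟩ := (mem_locAlg_iff 𝔪).1 r.2
    have hb0 : (b : E₀) ≠ 0 := coe_ne_zero_of_not_mem 𝔪 hb
    have hs : (b : E₀) * r ∈ V.nonunits := by
      rw [mul_comm]; exact vs_mem_nonunits_of_mul hr (hBV b)
    obtain ⟨b', hb', c, hc⟩ := hp ⟨_, hbr⟩ hs
    have hb'0 : (b' : E₀) ≠ 0 := coe_ne_zero_of_not_mem 𝔪 hb'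
    have hcin : InLoc A E₀ y 𝔪 ((c : E₀) / ((b : E₀) * b')) := by
      refine ⟨b * b', fun h => (Ideal.IsPrime.mem_or_mem ‹_› h).elim hb hb', ?_⟩
      have : ((b * b' : ↥(chartClosure A E₀ y)) : E₀) * ((c : E₀) / ((b : E₀) * b')) = c := by
        push_cast; field_simp
      rw [this]; exact c.2
    refine ⟨locOf 𝔪 _ hcin, Subtype.ext ?_⟩
    show (r : E₀) = x1 * ((c : E₀) / ((b : E₀) * b'))
    have hc' : (b' : E₀) * ((b : E₀) * r) = x1 * c := hc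
    field_simp
    rw [← hc']; ring

include hBV hthr hx1V hp in
/-- `x1` is a prime element of `B_𝔪`. -/
theorem locAlg_prime (hx10 : x1 ≠ 0) :
    Prime (locOf 𝔪 x1 (inLoc_of_mem (Ideal.IsPrime.ne_top ‹_›) hx1B)) := by
  refine ⟨fun h => hx10 (congrArg Subtype.val h), ?_, ?_⟩
  · intro hu
    obtain ⟨-, hinv⟩ := (locAlg_isUnit_iff 𝔪 _).1 hu
    have h1 : x1⁻¹ ∈ V := locAlg_le_val 𝔪 V hBV hthr (locOf 𝔪 _ hinv)
    rw [ValuationSubring.mem_nonunits_iff_or] at hx1V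
    rcases hx1V with h | h
    · exact hx10 h
    · exact h h1
  · intro a b hab
    rw [locAlg_dvd_iff 𝔪 V hBV hthr hx1B hx1V hp] at hab ⊢
    rw [locAlg_dvd_iff 𝔪 V hBV hthr hx1B hx1V hp]
    exact vs_nonunits_of_mul_mem (locAlg_le_val 𝔪 V hBV hthr a) (locAlg_le_val 𝔪 V hBV hthr b) hab

end Branch

section MaxIdeal

variable {x1 x2 : E₀} (hx1 : InLoc A E₀ y 𝔪 x1) (hx2 : InLoc A E₀ y 𝔪 x2)

/-- (r) gives `𝔪 B_𝔪 = (x1, x2)`. -/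
theorem locAlg_hmax_of_reg
    (hx1m : locOf 𝔪 x1 hx1 ∈ maximalIdeal ↥(locAlg 𝔪))
    (hx2m : locOf 𝔪 x2 hx2 ∈ maximalIdeal ↥(locAlg 𝔪))
    (hr : ∀ s : ↥(chartClosure A E₀ y), s ∈ 𝔪 →
      ∃ b : ↥(chartClosure A E₀ y), b ∉ 𝔪 ∧ ∃ c₁ c₂ : ↥(chartClosure A E₀ y),
        (b : E₀) * s = x1 * c₁ + x2 * c₂) :
    maximalIdeal ↥(locAlg 𝔪) = Ideal.span {locOf 𝔪 x1 hx1, locOf 𝔪 x2 hx2} := by
  apply le_antisymm
  · rw [← IsLocalization.AtPrime.map_eq_maximalIdeal 𝔪 ↥(locAlg 𝔪), Ideal.map_le_iff_le_comap]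
    intro s hs
    rw [Ideal.mem_comap, Ideal.mem_span_pair]
    obtain ⟨b, hb, c₁, c₂, h⟩ := hr s hs
    have hb0 : (b : E₀) ≠ 0 := coe_ne_zero_of_not_mem 𝔪 hb
    have hin : ∀ c : ↥(chartClosure A E₀ y), InLoc A E₀ y 𝔪 ((c : E₀) / b) := by
      intro c
      refine ⟨b, hb, ?_⟩
      have : (b : E₀) * ((c : E₀) / b) = c := by field_simp
      rw [this]; exact c.2
    refine ⟨locOf 𝔪 _ (hin c₁), locOf 𝔪 _ (hin c₂), Subtype.ext ?_⟩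
    show (c₁ : E₀) / b * x1 + (c₂ : E₀) / b * x2 = (s : E₀)
    field_simp
    rw [h]; ring
  · rw [Ideal.span_le]
    rintro x (rfl | rfl)
    · exact hx1m
    · exact hx2m

/-- `𝔪 B_𝔪 = (x1, x2)` gives (r). -/
theorem locAlg_reg_of_hmax
    (hmax : maximalIdeal ↥(locAlg 𝔪) = Ideal.span {locOf 𝔪 x1 hx1, locOf 𝔪 x2 hx2})
    (s : ↥(chartClosure A E₀ y)) (hs : s ∈ 𝔪) :
    ∃ b : ↥(chartClosure A E₀ y), b ∉ 𝔪 ∧ ∃ c₁ c₂ : ↥(chartClosure A E₀ y),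
      (b : E₀) * s = x1 * c₁ + x2 * c₂ := by
  have h1 : algebraMap ↥(chartClosure A E₀ y) ↥(locAlg 𝔪) s ∈ maximalIdeal ↥(locAlg 𝔪) :=
    (algebraMap_mem_maximalIdeal_iff 𝔪 s).2 hs
  rw [hmax, Ideal.mem_span_pair] at h1
  obtain ⟨r₁, r₂, h⟩ := h1
  have h' : (r₁ : E₀) * x1 + (r₂ : E₀) * x2 = (s : E₀) := congrArg Subtype.val h
  obtain ⟨b₁, hb₁, hc₁⟩ := (mem_locAlg_iff 𝔪).1 r₁.2
  obtain ⟨b₂, hb₂, hc₂⟩ := (mem_locAlg_iff 𝔪).1 r₂.2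
  refine ⟨b₁ * b₂, fun h => (Ideal.IsPrime.mem_or_mem ‹_› h).elim hb₁ hb₂,
    b₂ * ⟨_, hc₁⟩, b₁ * ⟨_, hc₂⟩, ?_⟩
  push_cast
  rw [← h']; ring

end MaxIdeal

end LocRing

end Fermat.Agent.H60.SS2
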