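import Fermat.Agent.H60.SS2.RegCrit
import Fermat.Agent.H4.SS.Hartogs

/-!
# P-SS2, row SS2-A1 (helper60) : REGCRIT, unconditional

`regCritU : RegCritStatement`, from `regCrit` and helper4's `localHartogs`.
-/

set_option autoImplicit false

namespace Fermat.Agent.H60.SS2

/-- **REGCRIT**, unconditional. -/
theorem regCritU : RegCritStatement := regCrit Fermat.Agent.H4.SS.localHartogs

end Fermat.Agent.H60.SS2
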