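import Fermat.Agent.H45.SS.Hartogs

/-!
# P-SS2, row SS2-A1 (helper60) : the interface of REGCRIT / REGFACT

Setting (as in `Fermat.Agent.H45.LocalHartogsStatement`): `A` a discrete valuation ring with
uniformiser `ϖ`, `E₀` a field of characteristic zero, finite over `K₀(y)`,
`B = chartClosure A E₀ y`, `C = gaussClosure A E₀ ϖ y`, `𝔪` a maximal ideal of `B` containing `ϖ`.

* `InLoc A E₀ y 𝔪 z` : `z ∈ B_𝔪`, i.e. `b z ∈ B` for some `b ∈ B ∖ 𝔪`;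
  `IsLocUnit A E₀ y 𝔪 z` : `z ≠ 0`, `z ∈ B_𝔪` and `z⁻¹ ∈ B_𝔪`;
  `locSubring A E₀ y 𝔪 h𝔪 : Subring E₀` : the ring `B_𝔪` (for a prime `𝔪`).
* `Through A E₀ y 𝔪 V` : the centre of the valuation subring `V` on `B` is contained in `𝔪`
  (every `s ∈ B` which is a non-unit of `V` lies in `𝔪`).
* `IsVerticalThrough A E₀ ϖ y 𝔪 V` : `V ≠ ⊤`, `C ⊆ V`, `Through`.
* `IsRegPoint A E₀ ϖ y 𝔪 V x1 x2` : `𝔪` is a REGULAR point with parameters `(x1, x2)` on the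
  branch `V` : `V` is a vertical valuation through `𝔪`, a discrete valuation ring with
  uniformiser `x1 ∈ B`, `x2 ∈ 𝔪` is a unit of `V`, (p) `𝔭_V B_𝔪 = x1 B_𝔪` and
  (r) `𝔪 B_𝔪 = (x1, x2) B_𝔪`.
* `RegCritStatement` (REGCRIT), `RegFactStatement` (REGFACT, vertical valuations given by a
  finite set `Vs` of discrete valuation rings with `C = ⋂ Vs`), `RegFactCoreStatement`
  (REGFACT with the hypothesis at ALL vertical discrete valuation rings through `𝔪`; no `Vs`).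
-/

set_option autoImplicit false

noncomputable section

namespace Fermat.Agent.H60.SS2

open Fermat.Agent.H22.KL Fermat.Agent.H45

section Defs

variable (A : Type) [CommRing A] (E₀ : Type) [Field E₀] [Algebra A E₀]

/-- `z ∈ B(y)_𝔪` : `b z ∈ B(y)` for some `b ∈ B(y) ∖ 𝔪`. -/
def InLoc (y : E₀) (𝔪 : Ideal (chartClosure A E₀ y)) (z : E₀) : Prop :=
  ∃ b : chartClosure A E₀ y, b ∉ 𝔪 ∧ (b : E₀) * z ∈ chartClosure A E₀ y

/-- `z` is a unit of `B(y)_𝔪`. -/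
def IsLocUnit (y : E₀) (𝔪 : Ideal (chartClosure A E₀ y)) (z : E₀) : Prop :=
  z ≠ 0 ∧ InLoc A E₀ y 𝔪 z ∧ InLoc A E₀ y 𝔪 z⁻¹

variable {A E₀} in
theorem inLoc_of_mem {y : E₀} {𝔪 : Ideal (chartClosure A E₀ y)} (h𝔪 : 𝔪 ≠ ⊤) {z : E₀}
    (hz : z ∈ chartClosure A E₀ y) : InLoc A E₀ y 𝔪 z :=
  ⟨1, fun h => h𝔪 ((Ideal.eq_top_iff_one 𝔪).2 h), by simpa using hz⟩

variable {A E₀} in
theorem InLoc.add {y : E₀} {𝔪 : Ideal (chartClosure A E₀ y)} (h𝔪 : 𝔪.IsPrime) {z w : E₀}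
    (hz : InLoc A E₀ y 𝔪 z) (hw : InLoc A E₀ y 𝔪 w) : InLoc A E₀ y 𝔪 (z + w) := by
  obtain ⟨b, hb, hbz⟩ := hz
  obtain ⟨c, hc, hcw⟩ := hw
  refine ⟨b * c, fun h => (h𝔪.mem_or_mem h).elim hb hc, ?_⟩
  have h1 : ((b * c : chartClosure A E₀ y) : E₀) * (z + w)
      = (c : E₀) * ((b : E₀) * z) + (b : E₀) * ((c : E₀) * w) := by
    push_cast; ring
  rw [h1]
  exact Subalgebra.add_mem _ (Subalgebra.mul_mem _ c.2 hbz) (Subalgebra.mul_mem _ b.2 hcw)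

variable {A E₀} in
theorem InLoc.mul {y : E₀} {𝔪 : Ideal (chartClosure A E₀ y)} (h𝔪 : 𝔪.IsPrime) {z w : E₀}
    (hz : InLoc A E₀ y 𝔪 z) (hw : InLoc A E₀ y 𝔪 w) : InLoc A E₀ y 𝔪 (z * w) := by
  obtain ⟨b, hb, hbz⟩ := hz
  obtain ⟨c, hc, hcw⟩ := hw
  refine ⟨b * c, fun h => (h𝔪.mem_or_mem h).elim hb hc, ?_⟩
  have h1 : ((b * c : chartClosure A E₀ y) : E₀) * (z * w)
      = ((b : E₀) * z) * ((c : E₀) * w) := by
    push_cast; ring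
  rw [h1]
  exact Subalgebra.mul_mem _ hbz hcw

variable {A E₀} in
theorem InLoc.neg {y : E₀} {𝔪 : Ideal (chartClosure A E₀ y)} {z : E₀}
    (hz : InLoc A E₀ y 𝔪 z) : InLoc A E₀ y 𝔪 (-z) := by
  obtain ⟨b, hb, hbz⟩ := hz
  refine ⟨b, hb, ?_⟩
  rw [mul_neg]
  exact Subalgebra.neg_mem _ hbz

/-- The local ring `B(y)_𝔪` as a subring of `E₀`. -/
def locSubring (y : E₀) (𝔪 : Ideal (chartClosure A E₀ y)) (h𝔪 : 𝔪.IsPrime) : Subring E₀ where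
  carrier := {z | InLoc A E₀ y 𝔪 z}
  mul_mem' := fun hz hw => InLoc.mul h𝔪 hz hw
  one_mem' := inLoc_of_mem h𝔪.ne_top (Subalgebra.one_mem _)
  add_mem' := fun hz hw => InLoc.add h𝔪 hz hw
  zero_mem' := inLoc_of_mem h𝔪.ne_top (Subalgebra.zero_mem _)
  neg_mem' := fun hz => InLoc.neg hz

variable {A E₀} in
@[simp] theorem mem_locSubring {y : E₀} {𝔪 : Ideal (chartClosure A E₀ y)} {h𝔪 : 𝔪.IsPrime}
    {z : E₀} : z ∈ locSubring A E₀ y 𝔪 h𝔪 ↔ InLoc A E₀ y 𝔪 z := Iff.rfl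

/-- The centre of `V` on `B(y)` is contained in `𝔪`: every element of `B(y)` which is a
non-unit of `V` lies in `𝔪`. -/
def Through (y : E₀) (𝔪 : Ideal (chartClosure A E₀ y)) (V : ValuationSubring E₀) : Prop :=
  ∀ s : chartClosure A E₀ y, (s : E₀) ∈ V.nonunits → s ∈ 𝔪

/-- `V` is a VERTICAL valuation through `𝔪` (row SS2-0): `V ≠ ⊤`, the Gauss closure `C(y)` is
contained in `V`, and the centre of `V` on `B(y)` is contained in `𝔪`. -/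
def IsVerticalThrough (ϖ : A) (y : E₀) (𝔪 : Ideal (chartClosure A E₀ y))
    (V : ValuationSubring E₀) : Prop :=
  V ≠ ⊤ ∧ (∀ z ∈ gaussClosure A E₀ ϖ y, z ∈ V) ∧ Through A E₀ y 𝔪 V

/-- **Regular point.**  `𝔪` is a regular point of `B(y)` with parameters `(x1, x2)` on the
branch `V`. -/
structure IsRegPoint (ϖ : A) (y : E₀) (𝔪 : Ideal (chartClosure A E₀ y))
    (V : ValuationSubring E₀) (x1 x2 : E₀) : Prop where
  /-- `V` is a vertical valuation through `𝔪`. -/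
  vert : IsVerticalThrough A E₀ ϖ y 𝔪 V
  /-- `V` is a discrete valuation ring. -/
  pir : IsPrincipalIdealRing V
  /-- `x1` is a uniformiser of `V`. -/
  unif : IsUniformiser E₀ V x1
  /-- `x1 ∈ B(y)`. -/
  x1_mem : x1 ∈ chartClosure A E₀ y
  /-- `x2 ∈ 𝔪`. -/
  x2_mem : ∃ s : chartClosure A E₀ y, s ∈ 𝔪 ∧ (s : E₀) = x2
  /-- `x2` is a unit of `V`. -/
  x2_unit : x2 ∉ V.nonunits
  /-- (p) `𝔭_V B_𝔪 = x1 B_𝔪`. -/
  prin : ∀ s : chartClosure A E₀ y, (s : E₀) ∈ V.nonunits →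
    ∃ b : chartClosure A E₀ y, b ∉ 𝔪 ∧ ∃ c : chartClosure A E₀ y, (b : E₀) * s = x1 * c
  /-- (r) `𝔪 B_𝔪 = (x1, x2) B_𝔪`. -/
  reg : ∀ s : chartClosure A E₀ y, s ∈ 𝔪 →
    ∃ b : chartClosure A E₀ y, b ∉ 𝔪 ∧ ∃ c₁ c₂ : chartClosure A E₀ y,
      (b : E₀) * s = x1 * c₁ + x2 * c₂

end Defs

/-- **REGCRIT** (regular-point criterion by DVR-maximality).

`Vs` : the vertical valuations (a finite set of discrete valuation rings with `C(y) = ⋂ Vs`);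
`V ∈ Vs` through `𝔪` with uniformiser `x1 ∈ B`;
HYP1 : `x1` is a unit of every other `W ∈ Vs` through `𝔪` and of every place centred at `𝔪`;
HYP2 : a subring `D0 ⊆ B_𝔪` and `x2 ∈ D0 ∩ 𝔪`, a unit of `V`, such that
 (i) every `d ∈ D0` is in `x2 D0 + 𝔪_V` or is a unit of `B_𝔪`,
 (ii) every element of `V` is congruent modulo `𝔪_V` to a quotient `d / d'` with `d, d' ∈ D0`,
   `d'` a unit of `V`. -/
def RegCritStatement : Prop :=
  ∀ (A : Type) [CommRing A] [IsDomain A] [IsDiscreteValuationRing A]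
    (E₀ : Type) [Field E₀] [Algebra A E₀] [CharZero E₀],
    Function.Injective (algebraMap A E₀) →
    ∀ (ϖ : A), Irreducible ϖ → ∀ (y : E₀), Transcendental A y →
    (∃ n : ℕ, Nonempty (Module.Basis (Fin n) (chartField A E₀ y) E₀)) →
    ∀ (𝔪 : Ideal (chartClosure A E₀ y)), 𝔪.IsMaximal →
      algebraMap A (chartClosure A E₀ y) ϖ ∈ 𝔪 →
    ∀ (Vs : Set (ValuationSubring E₀)), Vs.Finite →
      (∀ W ∈ Vs, W ≠ ⊤ ∧ IsPrincipalIdealRing W) →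
      (∀ z : E₀, z ∈ gaussClosure A E₀ ϖ y ↔ ∀ W ∈ Vs, z ∈ W) →
    ∀ (V : ValuationSubring E₀), V ∈ Vs → Through A E₀ y 𝔪 V →
    ∀ (x1 x2 : E₀), IsUniformiser E₀ V x1 → x1 ∈ chartClosure A E₀ y →
      (∀ W ∈ Vs, W ≠ V → Through A E₀ y 𝔪 W → x1 ∉ W.nonunits) →
      (∀ V' : ValuationSubring E₀, CentredAt A E₀ y 𝔪 V' → x1 ∉ V'.nonunits) →
    ∀ (D0 : Subring E₀), (∀ d ∈ D0, InLoc A E₀ y 𝔪 d) → x2 ∈ D0 →
      (∃ s : chartClosure A E₀ y, s ∈ 𝔪 ∧ (s : E₀) = x2) → x2 ∉ V.nonunits →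
      (∀ d ∈ D0, (∃ d' ∈ D0, d - x2 * d' ∈ V.nonunits) ∨ InLoc A E₀ y 𝔪 d⁻¹) →
      (∀ z ∈ V, ∃ d ∈ D0, ∃ d' ∈ D0, d' ∉ V.nonunits ∧ z * d' - d ∈ V.nonunits) →
      IsRegPoint A E₀ ϖ y 𝔪 V x1 x2

/-- **REGFACT, core form** (local factoriality at a regular point): if `n ∣ ord_{V'} u` at
every place `V'` centred at `𝔪` and at every vertical discrete valuation ring `V'` through
`𝔪`, then `u p ^ n` is a unit of `B_𝔪` for some `p ≠ 0`. -/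
def RegFactCoreStatement : Prop :=
  ∀ (A : Type) [CommRing A] [IsDomain A] [IsDiscreteValuationRing A]
    (E₀ : Type) [Field E₀] [Algebra A E₀] [CharZero E₀],
    Function.Injective (algebraMap A E₀) →
    ∀ (ϖ : A), Irreducible ϖ → ∀ (y : E₀), Transcendental A y →
    (∃ n : ℕ, Nonempty (Module.Basis (Fin n) (chartField A E₀ y) E₀)) →
    ∀ (𝔪 : Ideal (chartClosure A E₀ y)), 𝔪.IsMaximal →
      algebraMap A (chartClosure A E₀ y) ϖ ∈ 𝔪 →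
    ∀ (V : ValuationSubring E₀) (x1 x2 : E₀), IsRegPoint A E₀ ϖ y 𝔪 V x1 x2 →
    ∀ (u : E₀), u ≠ 0 → ∀ n : ℕ, 0 < n →
      (∀ V' : ValuationSubring E₀, CentredAt A E₀ y 𝔪 V' → OrdDvd E₀ V' n u) →
      (∀ V' : ValuationSubring E₀, IsPrincipalIdealRing V' →
        IsVerticalThrough A E₀ ϖ y 𝔪 V' → OrdDvd E₀ V' n u) →
      ∃ p : E₀, p ≠ 0 ∧ IsLocUnit A E₀ y 𝔪 (u * p ^ n)

/-- **REGFACT** (local factoriality at a regular point), with the vertical valuations given by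
a finite set `Vs` of discrete valuation rings, `C(y) = ⋂ Vs`: if `n ∣ ord_{V'} u` at every place
`V'` centred at `𝔪` and at every `W ∈ Vs` through `𝔪`, then `u p ^ n` is a unit of `B_𝔪` for
some `p ≠ 0`. -/
def RegFactStatement : Prop :=
  ∀ (A : Type) [CommRing A] [IsDomain A] [IsDiscreteValuationRing A]
    (E₀ : Type) [Field E₀] [Algebra A E₀] [CharZero E₀],
    Function.Injective (algebraMap A E₀) →
    ∀ (ϖ : A), Irreducible ϖ → ∀ (y : E₀), Transcendental A y →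
    (∃ n : ℕ, Nonempty (Module.Basis (Fin n) (chartField A E₀ y) E₀)) →
    ∀ (𝔪 : Ideal (chartClosure A E₀ y)), 𝔪.IsMaximal →
      algebraMap A (chartClosure A E₀ y) ϖ ∈ 𝔪 →
    ∀ (Vs : Set (ValuationSubring E₀)), Vs.Finite →
      (∀ W ∈ Vs, W ≠ ⊤ ∧ IsPrincipalIdealRing W) →
      (∀ z : E₀, z ∈ gaussClosure A E₀ ϖ y ↔ ∀ W ∈ Vs, z ∈ W) →
    ∀ (V : ValuationSubring E₀) (x1 x2 : E₀), IsRegPoint A E₀ ϖ y 𝔪 V x1 x2 →
    ∀ (u : E₀), u ≠ 0 → ∀ n : ℕ, 0 < n →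
      (∀ V' : ValuationSubring E₀, CentredAt A E₀ y 𝔪 V' → OrdDvd E₀ V' n u) →
      (∀ W ∈ Vs, Through A E₀ y 𝔪 W → OrdDvd E₀ W n u) →
      ∃ p : E₀, p ≠ 0 ∧ IsLocUnit A E₀ y 𝔪 (u * p ^ n)

end Fermat.Agent.H60.SS2
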